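import Fermat.Agent.TateLocal.Local
import Fermat.Agent.ConductorMatch.TateMatrix
import Fermat.Agent.GaloisImage.AtP
import Fermat.Agent.ModularityLifting.Setup

/-!
# The Tate module at `p`

At a prime `p` of multiplicative reduction the Tate module is strictly ordinary, with unramified
quotient character of sign `± 1` (`exists_strictAt`).
-/

set_option autoImplicit false

noncomputable section

open WeierstrassCurve WeierstrassCurve.Affine WeierstrassCurve.Affine.Point Polynomial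
open scoped WeierstrassCurve.Affine Pointwise

namespace FLTAgent.TateLocal

open FLTAgent.Density FLTAgent.ECTorsion FLTAgent.ECReduction FLTAgent.ConductorMatch
  FLTAgent.LocalThree FLTAgent.GaloisAttach

section Eds

variable {K : Type*} [Field K] (A : ValuationSubring K)

theorem val_preNormEDS'_lt {b c d : K} (hb : A.valuation b ≤ 1) (hc : A.valuation c < 1)
    (hd : A.valuation d < 1) (n : ℕ) : A.valuation (preNormEDS' b c d n) ≤ 1 ∧
      (3 ≤ n → A.valuation (preNormEDS' b c d n) < 1) := by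
  induction n using Nat.strong_induction_on with
  | _ n ih =>
    have hle : ∀ {j}, j < n → A.valuation (preNormEDS' b c d j) ≤ 1 := fun h => (ih _ h).1
    have hlt : ∀ {j}, j < n → 3 ≤ j → A.valuation (preNormEDS' b c d j) < 1 := fun h => (ih _ h).2
    have hif : ∀ (P : Prop) [Decidable P], A.valuation (if P then b else 1) ≤ 1 :=
      fun P _ => by split_ifs <;> simp [hb]
    have hif' : ∀ (P : Prop) [Decidable P], A.valuation (if P then 1 else b) ≤ 1 :=
      fun P _ => by split_ifs <;> simp [hb]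
    rcases (by omega : n = 0 ∨ n = 1 ∨ n = 2 ∨ n = 3 ∨ n = 4 ∨ 5 ≤ n) with
      rfl | rfl | rfl | rfl | rfl | h5
    · simp
    · simp
    · simp
    · simp [hc, hc.le]
    · simp [hd, hd.le]
    suffices A.valuation (preNormEDS' b c d n) < 1 from ⟨this.le, fun _ => this⟩
    rcases Nat.even_or_odd n with he | ho
    · obtain ⟨m, rfl⟩ : ∃ m, n = 2 * (m + 3) :=
        ⟨n / 2 - 3, by obtain ⟨r, rfl⟩ := he; omega⟩
      rw [preNormEDS'_even]
      exact val_sub_lt A (val_mul_lt_right A (val_mul_le A (val_pow_le A (hle (by omega)) 2)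
        (hle (by omega))) (hlt (by omega) (by omega)))
        (val_mul_lt_right A (val_mul_le A (hle (by omega)) (hle (by omega)))
          (val_pow_lt A (hlt (by omega) (by omega)) two_ne_zero))
    · obtain ⟨m, rfl⟩ : ∃ m, n = 2 * (m + 2) + 1 :=
        ⟨n / 2 - 2, by obtain ⟨r, rfl⟩ := ho; omega⟩
      rw [preNormEDS'_odd]
      exact val_sub_lt A (val_mul_lt_left A (val_mul_lt_left A (hlt (by omega) (by omega))
        (val_pow_le A (hle (by omega)) 3)) (hif _))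
        (val_mul_lt_left A (val_mul_lt_right A (hle (by omega))
          (val_pow_lt A (hlt (by omega) (by omega)) three_ne_zero)) (hif' _))

/-- The division polynomials from `ψ₃` on vanish at the node of the reduction. -/
theorem val_eval_preΨ'_node {W : WeierstrassCurve K} (nd : NodeData A W)
    {n : ℕ} (hn : 3 ≤ n) : A.valuation ((W.preΨ' n).eval nd.r) < 1 := by
  have hu := nd.val_u.le
  have ha3 : W.a₃ = -2 * nd.t - W.a₁ * nd.r := by
    have := nd.eY; simp only [dY] at this; linear_combination this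
  have ha4 : W.a₄ = W.a₁ * nd.t - 3 * nd.r ^ 2 - 2 * W.a₂ * nd.r := by
    have := nd.eX; simp only [dX] at this; linear_combination -this
  have ha2 : W.a₂ = nd.s ^ 2 + W.a₁ * nd.s - 3 * nd.r := by linear_combination -nd.es
  have ha6 : W.a₆ = nd.c - nd.r ^ 3 - W.a₂ * nd.r ^ 2 - W.a₄ * nd.r + nd.t ^ 2
      + W.a₁ * nd.r * nd.t + W.a₃ * nd.t := by simp only [NodeData.c]; ring
  have e2 : W.Ψ₂Sq.eval nd.r = 4 * nd.c := by
    simp [WeierstrassCurve.Ψ₂Sq, WeierstrassCurve.b₂, WeierstrassCurve.b₄, WeierstrassCurve.b₆]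
    rw [ha6, ha4, ha3, ha2]; ring
  have e3 : W.Ψ₃.eval nd.r = nd.u ^ 2 * nd.c := by
    simp [WeierstrassCurve.Ψ₃, WeierstrassCurve.b₂, WeierstrassCurve.b₄, WeierstrassCurve.b₆,
      WeierstrassCurve.b₈, NodeData.u]
    rw [ha6, ha4, ha3, ha2]; ring
  have e4 : W.preΨ₄.eval nd.r = -(16 * nd.c ^ 2) := by
    simp [WeierstrassCurve.preΨ₄, WeierstrassCurve.b₂, WeierstrassCurve.b₄, WeierstrassCurve.b₆,
      WeierstrassCurve.b₈]
    rw [ha6, ha4, ha3, ha2]; ring
  have e : (W.preΨ' n).eval nd.r =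
      preNormEDS' ((W.Ψ₂Sq.eval nd.r) ^ 2) (W.Ψ₃.eval nd.r) (W.preΨ₄.eval nd.r) n := by
    rw [← Polynomial.coe_evalRingHom, WeierstrassCurve.preΨ', map_preNormEDS', map_pow]
  rw [e, e2, e3, e4]
  refine (val_preNormEDS'_lt A ?_ ?_ ?_ n).2 hn
  · exact val_pow_le A (val_mul_le A (val_ofNat_le A 4) nd.val_c.le) 2
  · exact val_mul_lt_right A (val_pow_le A hu 2) nd.val_c
  · exact val_neg_lt A (val_mul_lt_right A (val_ofNat_le A 16) (val_pow_lt A nd.val_c two_ne_zero))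

end Eds

variable {W : WeierstrassCurve ℤ} {A : ValuationSubring Qbar} {p : ℕ} [Fact p.Prime]

/-- At a multiplicative `p` not all of the `p`-torsion reduces to infinity. -/
theorem exists_not_inE1 (hp2 : p ≠ 2) (hΔ : W.Δ ≠ 0) (hA : A.LiesOverPrime p)
    (hc4 : ¬ (p : ℤ) ∣ W.c₄) (nd : NodeData A ((EQ W)⁄Qbar : WeierstrassCurve Qbar)) :
    ∃ z : Pt W, p • z = 0 ∧ ¬ InE1 A ((EQ W)⁄Qbar : WeierstrassCurve Qbar) z := by
  by_contra hcon
  push Not at hcon
  have htop : GaloisImage.torE1 (p := p) W A = ⊤ := by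
    refine eq_top_iff.2 fun z _ => GaloisImage.mem_torE1.2 (hcon _ (GaloisImage.nsmul_tors W z))
  obtain ⟨h0, hs⟩ := GaloisImage.coeff_facts hp2 hΔ (fun _ => hc4) hA htop
  set f := GaloisImage.divPol W p with hf
  have hlt : A.valuation (p : Qbar) < 1 := A.mem_nonunits_iff.1 hA
  have hr : A.valuation (f.eval nd.r) = 1 := by
    have e := f.eval_eq_sum_range nd.r
    rw [Finset.sum_range_succ'] at e
    rw [e, pow_zero, mul_one, A.valuation.map_add_eq_of_lt_right, h0]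
    rw [h0]
    refine A.valuation.map_sum_lt one_ne_zero fun i _ => ?_
    exact val_mul_lt_left A ((hs _ (Nat.succ_ne_zero i)).trans_lt hlt) (val_pow_le A nd.hr _)
  have hp3 : 3 ≤ p := by have := (Fact.out : p.Prime).two_le; omega
  refine (val_eval_preΨ'_node A nd hp3).ne ?_
  rw [hf, GaloisImage.divPol_eq] at hr
  exact hr

/-- Some element of inertia at `p` acts nontrivially on the `p`-th roots of unity. -/
theorem exists_inertia_cyc (hp2 : p ≠ 2) (hA : A.LiesOverPrime p) :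
    ∃ σ ∈ A.inertiaSubgroupIn ℚ, PadicInt.toZMod (cyc p σ) ≠ 1 := by
  have hp : p.Prime := Fact.out
  have : NeZero p := ⟨hp.ne_zero⟩
  obtain ⟨ζ, hζ⟩ := HasEnoughRootsOfUnity.exists_primitiveRoot Qbar p
  by_contra hcon
  push Not at hcon
  have hfixA : ∀ σ ∈ A.inertiaSubgroupIn ℚ, ∀ μ : Qbar, μ ^ p = 1 → σ μ = μ := by
    intro σ hσ μ hμ
    have h := apply_rootOfUnity p σ (n := 1) (ζ := μ) (by rw [pow_one]; exact hμ)
    have h1 : PadicInt.toZModPow 1 (cyc p σ) = 1 := by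
      have e : PadicInt.toZMod (cyc p σ - 1) = 0 := by rw [map_sub, hcon σ hσ, map_one, sub_self]
      rw [← RingHom.mem_ker, PadicInt.ker_toZMod, PadicInt.maximalIdeal_eq_span_p,
        ← pow_one (p : ℤ_[p]), ← PadicInt.ker_toZModPow, RingHom.mem_ker, map_sub, map_one,
        sub_eq_zero] at e
      exact e
    rw [h, h1]
    have : Fact (1 < p ^ 1) := ⟨by rw [pow_one]; exact hp.one_lt⟩
    rw [ZMod.val_one, pow_one]
  have htop : MulAction.stabilizer GalQ ζ = ⊤ := by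
    refine eq_top_of_inertia_le _ (stabilizer_isOpen_of_isIntegral (K := ℚ) ζ)
      fun q hq B hB σ hσ => ?_
    rw [MulAction.mem_stabilizer_iff, AlgEquiv.smul_def]
    by_cases hqp : q = p
    · subst hqp
      obtain ⟨τ, rfl⟩ := exists_smul_eq_of_liesOverPrime hq hA hB
      have h := mem_inertiaSubgroupIn_smul hσ τ⁻¹
      rw [inv_smul_smul, inv_inv] at h
      have h1 := hfixA _ h (τ⁻¹ ζ) (by rw [← map_pow, hζ.pow_eq_one, map_one])
      rw [AlgEquiv.mul_apply, AlgEquiv.mul_apply, AlgEquiv.aut_inv, AlgEquiv.apply_symm_apply] at h1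
      exact τ.symm.injective h1
    · exact inertia_apply_rootOfUnity hq hB hσ
        (fun hd => hqp ((Nat.prime_dvd_prime_iff_eq hq hp).1 hd)) hζ.pow_eq_one
  have hc : complexConjugation ∈ MulAction.stabilizer GalQ ζ := htop ▸ Subgroup.mem_top _
  rw [MulAction.mem_stabilizer_iff, AlgEquiv.smul_def,
    GaloisImage.involution_apply_rootOfUnity complexConjugation_mul_self
      GaloisImage.complexConjugation_ne_one (hp.odd_of_ne_two hp2) hζ.pow_eq_one] at hc
  have hζ0 : ζ ≠ 0 := hζ.ne_zero hp.ne_zero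
  have h2 : ζ ^ 2 = 1 := by rw [sq, mul_eq_one_iff_inv_eq₀ hζ0]; exact hc
  have := Nat.le_of_dvd two_pos (hζ.dvd_of_pow_eq_one 2 h2)
  have := hp.two_le
  omega

theorem exists_mul_eq_pow (k : ℕ) {b : ZMod (p ^ k)} (hb : b ≠ 0) :
    ∃ c, c * b = (p : ZMod (p ^ k)) ^ (k - 1) := by
  have hp : p.Prime := Fact.out
  have : NeZero (p ^ k) := ⟨pow_ne_zero _ hp.ne_zero⟩
  have hb0 : b.val ≠ 0 := fun h => hb ((ZMod.val_eq_zero b).1 h)
  obtain ⟨j, m, hm, he⟩ := Nat.exists_eq_pow_mul_and_not_dvd hb0 p hp.ne_one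
  have hjk : j < k := by
    by_contra hle
    rw [not_lt] at hle
    have h1 : p ^ k ∣ b.val := he ▸ dvd_mul_of_dvd_left (pow_dvd_pow p hle) m
    exact hb0 (Nat.eq_zero_of_dvd_of_lt h1 (ZMod.val_lt b))
  have hu : IsUnit (m : ZMod (p ^ k)) := (ZMod.isUnit_iff_coprime _ _).2
    (Nat.Coprime.pow_right k (Nat.Coprime.symm (hp.coprime_iff_not_dvd.2 hm)))
  refine ⟨(p : ZMod (p ^ k)) ^ (k - 1 - j) * ↑hu.unit⁻¹, ?_⟩
  conv_lhs => rw [← ZMod.natCast_zmod_val b, he]
  push_cast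
  rw [mul_assoc, mul_left_comm (↑hu.unit⁻¹ : ZMod (p ^ k)), hu.val_inv_mul, mul_one, ← pow_add,
    Nat.sub_add_cancel (by omega : j ≤ k - 1)]

/-- A submodule containing a primitive vector and a vector off its line is big. -/
theorem pow_smul_mem_of_line (k : ℕ) {T : Submodule (ZMod (p ^ k)) (Fin 2 → ZMod (p ^ k))}
    {w g z : Fin 2 → ZMod (p ^ k)} (hg : g 0 * w 0 + g 1 * w 1 = 1) (hw : w ∈ T) (hz : z ∈ T)
    (hfz : -w 1 * z 0 + w 0 * z 1 ≠ 0) (x : Fin 2 → ZMod (p ^ k)) :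
    (p : ZMod (p ^ k)) ^ (k - 1) • x ∈ T := by
  obtain ⟨c, hc⟩ := exists_mul_eq_pow k hfz
  have hsplit : ∀ y : Fin 2 → ZMod (p ^ k), y = (g 0 * y 0 + g 1 * y 1) • w +
      (-w 1 * y 0 + w 0 * y 1) • ![-g 1, g 0] := by
    intro y
    funext i
    fin_cases i <;> simp
    · linear_combination -(y 0) * hg
    · linear_combination -(y 1) * hg
  have he : (p : ZMod (p ^ k)) ^ (k - 1) • (![-g 1, g 0] : Fin 2 → ZMod (p ^ k)) ∈ T := by
    have h := T.sub_mem (T.smul_mem c hz) (T.smul_mem (c * (g 0 * z 0 + g 1 * z 1)) hw)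
    conv at h => enter [2, 1]; rw [hsplit z]
    rwa [smul_add, smul_smul, smul_smul, hc, add_sub_cancel_left] at h
  rw [hsplit x, smul_add, smul_comm ((p : ZMod (p ^ k)) ^ (k - 1)) (-w 1 * x 0 + w 0 * x 1)]
  exact T.add_mem (T.smul_mem _ (T.smul_mem _ hw)) (T.smul_mem _ he)

/-- The torsion reducing to infinity, in coordinates. -/
def lineAt (A : ValuationSubring Qbar) (hΔ : W.Δ ≠ 0) (k : ℕ) :
    Submodule (ZMod (p ^ k)) (Fin 2 → ZMod (p ^ k)) :=
  (AddSubgroup.toZModSubmodule (p ^ k)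
    (AddSubgroup.comap (Tor W (p ^ k)).subtype.toAddMonoidHom
      (E1 (ConductorMatch.intAt (W := W) (A := A))))).map
    (tateBasis p W hΔ k).equivFun.toLinearMap

theorem mem_lineAt (hΔ : W.Δ ≠ 0) (k : ℕ) (z : Tor W (p ^ k)) :
    (tateBasis p W hΔ k).equivFun z ∈ lineAt (p := p) A hΔ k ↔
      InE1 A ((EQ W)⁄Qbar : WeierstrassCurve Qbar) (z : Pt W) := by
  constructor
  · rintro ⟨z', hz', he⟩
    rw [← (tateBasis p W hΔ k).equivFun.injective he]
    exact hz'
  · exact fun h => ⟨z, h, rfl⟩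

theorem lineAt_not_full (hp2 : p ≠ 2) (hΔ : W.Δ ≠ 0) (hA : A.LiesOverPrime p)
    (hc4 : ¬ (p : ℤ) ∣ W.c₄) (nd : NodeData A ((EQ W)⁄Qbar : WeierstrassCurve Qbar)) {k : ℕ}
    (hk : k ≠ 0) (hall : ∀ x, (p : ZMod (p ^ k)) ^ (k - 1) • x ∈ lineAt (p := p) A hΔ k) :
    False := by
  have := isElliptic (W := W) hΔ
  obtain ⟨z, hz, hz1⟩ := exists_not_inE1 hp2 hΔ hA hc4 nd
  obtain ⟨y, hy⟩ := nsmul_surjective ((EQ W)⁄Qbar)
    (pow_ne_zero (k - 1) (Fact.out : p.Prime).ne_zero) z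
  simp only at hy
  have hyt : p ^ k • y = 0 := by
    rw [show p ^ k = p ^ (k - 1) * p by rw [← pow_succ]; congr 1; omega, mul_nsmul, hy, hz]
  let Y : Tor W (p ^ k) := ⟨y, (mem_torsionBy_iff_nsmul _ y).2 hyt⟩
  have h := hall ((tateBasis p W hΔ k).equivFun Y)
  rw [← map_smul, ← Nat.cast_pow, Nat.cast_smul_eq_nsmul, mem_lineAt] at h
  refine hz1 ?_
  rw [← hy]
  exact h

theorem mulVec_sub_mem_lineAt (hp2 : p ≠ 2) (hΔ : W.Δ ≠ 0) (hA : A.LiesOverPrime p)
    (nd : NodeData A ((EQ W)⁄Qbar : WeierstrassCurve Qbar)) {σ : GalQ}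
    (hσ : σ ∈ A.decompositionSubgroup ℚ) (k : ℕ) (x : Fin 2 → ZMod (p ^ k)) :
    (levelRep p W hΔ k σ).mulVec x - (sgn nd σ : ZMod (p ^ k)) • x ∈ lineAt (p := p) A hΔ k := by
  have hp : p.Prime := Fact.out
  set b := tateBasis p W hΔ k
  obtain ⟨z, rfl⟩ := b.equivFun.surjective x
  have e : (levelRep p W hΔ k σ).mulVec (b.equivFun z) = b.equivFun (σ • z) :=
    LinearMap.toMatrix_mulVec_repr b b _ z
  rw [e, ← map_smul, ← map_sub, mem_lineAt, Int.cast_smul_eq_zsmul]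
  push_cast [ConductorMatch.coe_smul]
  refine inE1_of_inE0 nd hp hA (k := k) ?_
    (smul_sub_sgn_inE0 nd ConductorMatch.intAt (valPres hp hA hσ) ((hp.odd_of_ne_two hp2).pow)
      (ConductorMatch.nsmul_coe z))
  rw [nsmul_sub, nsmul_smul_eq_zero σ (ConductorMatch.nsmul_coe z), smul_comm,
    ConductorMatch.nsmul_coe, zsmul_zero, sub_zero]

/-- A functional killing the line is an eigenvector of every decomposition element. -/
theorem exists_functional (hp2 : p ≠ 2) (hΔ : W.Δ ≠ 0) (hA : A.LiesOverPrime p)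
    (hc4 : ¬ (p : ℤ) ∣ W.c₄) (nd : NodeData A ((EQ W)⁄Qbar : WeierstrassCurve Qbar)) :
    ∃ w g : Fin 2 → ℤ_[p], g 0 * w 0 + g 1 * w 1 = 1 ∧
      ∀ σ ∈ A.decompositionSubgroup ℚ, ∀ l : Fin 2,
        -w 1 * tateRep p W hΔ σ 0 l + w 0 * tateRep p W hΔ σ 1 l =
          (sgn nd σ : ℤ_[p]) * ![-w 1, w 0] l := by
  have hp : p.Prime := Fact.out
  obtain ⟨σ₀, hσ₀, hd⟩ := exists_inertia_cyc hp2 hA
  have hσ₀d := (mem_inertiaSubgroupIn_iff.1 hσ₀).1
  have hs1 := sgn_eq_one_of_inertia nd hp hA hσ₀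
  set N := tateRep p W hΔ σ₀ - 1 with hN
  have hNk : ∀ k, N.map (PadicInt.toZModPow k) = levelRep p W hΔ k σ₀ - 1 := fun k => by
    rw [hN, Matrix.map_sub _ (map_sub _), map_tateRep,
      Matrix.map_one _ (_root_.map_zero _) (_root_.map_one _)]
  have hmem : ∀ k x, (N.map (PadicInt.toZModPow k)).mulVec x ∈ lineAt (p := p) A hΔ k :=
    fun k x => by
    have h := mulVec_sub_mem_lineAt hp2 hΔ hA nd hσ₀d k x
    rw [hs1, Int.cast_one, one_smul] at h
    rwa [hNk, Matrix.sub_mulVec, Matrix.one_mulVec]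
  have hdet : N.det = 0 := by
    refine PadicInt.ext_of_toZModPow.mp fun k => ?_
    rw [_root_.map_zero, RingHom.map_det, RingHom.mapMatrix_apply]
    by_contra hne
    have hk : k ≠ 0 := by
      rintro rfl
      have : Subsingleton (ZMod (p ^ 0)) := by rw [pow_zero]; infer_instance
      exact hne (Subsingleton.elim _ _)
    obtain ⟨c, hc⟩ := exists_mul_eq_pow k hne
    refine lineAt_not_full hp2 hΔ hA hc4 nd hk fun x => ?_
    have h := (lineAt (p := p) A hΔ k).smul_mem c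
        (hmem k ((N.map (PadicInt.toZModPow k)).adjugate.mulVec x))
    rwa [Matrix.mulVec_mulVec, Matrix.mul_adjugate, Matrix.smul_mulVec, Matrix.one_mulVec,
      smul_smul, hc] at h
  obtain ⟨i, j, hu⟩ : ∃ i j, IsUnit (N i j) := by
    by_contra hno
    push Not at hno
    have h0 : ∀ i j, PadicInt.toZMod (N i j) = 0 := fun i j => by
      rw [← RingHom.mem_ker, PadicInt.ker_toZMod, IsLocalRing.mem_maximalIdeal]
      exact hno i j
    refine hd ?_
    have hdetρ : (tateRep p W hΔ σ₀).det = cyc p σ₀ := det_tateRep W hΔ σ₀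
    rw [← hdetρ, show tateRep p W hΔ σ₀ = N + 1 by rw [hN, sub_add_cancel], Matrix.det_fin_two]
    simp [h0]
  refine ⟨fun l => N l j, fun l => if l = i then ↑hu.unit⁻¹ else 0, ?_, fun σ hσ l => ?_⟩
  · fin_cases i <;> simp
  refine PadicInt.ext_of_toZModPow.mp fun k => ?_
  rcases eq_or_ne k 0 with rfl | hk
  · have : Subsingleton (ZMod (p ^ 0)) := by rw [pow_zero]; infer_instance
    exact Subsingleton.elim _ _
  by_contra hne
  set π := PadicInt.toZModPow (p := p) k with hπ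
  refine lineAt_not_full hp2 hΔ hA hc4 nd hk (pow_smul_mem_of_line k
    (w := fun l => π (N l j)) (g := fun l => π (if l = i then ↑hu.unit⁻¹ else 0))
    (z := (levelRep p W hΔ k σ).mulVec (Pi.single l 1) - (sgn nd σ : ZMod (p ^ k)) • Pi.single l 1)
    ?_ ?_ (mulVec_sub_mem_lineAt hp2 hΔ hA nd hσ k _) fun h0 => hne ?_)
  · fin_cases i <;> simp [← map_mul]
  · have h := hmem k (Pi.single j 1)
    rw [Matrix.mulVec_single_one] at h
    exact h
  · have hM : ∀ a b, levelRep p W hΔ k σ a b = π (tateRep p W hΔ σ a b) := fun a b => by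
      rw [← map_tateRep]; rfl
    simp only [Pi.sub_apply, Matrix.mulVec_single_one, Matrix.col_apply, Pi.smul_apply,
      smul_eq_mul, hM] at h0
    rw [map_add, map_mul, map_mul, map_neg, map_mul, map_intCast]
    fin_cases l <;> simp at h0 ⊢ <;> linear_combination h0

/-- Strictly ordinary at `p`. -/
theorem exists_strictAt (hp2 : p ≠ 2) (hΔ : W.Δ ≠ 0) (hdvd : (p : ℤ) ∣ W.Δ)
    (hc4 : ¬ (p : ℤ) ∣ W.c₄) :
    ∃ ε : ℤ, (ε = 1 ∨ ε = -1) ∧
      ModularityLifting.StrictAt (tateRep p W hΔ) p (ε : ℤ_[p]) := by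
  have hp : p.Prime := Fact.out
  obtain ⟨A₀, hA₀⟩ := exists_liesOverPrime hp
  obtain ⟨nd⟩ := exists_node hp hA₀ hdvd hc4
  obtain ⟨φ₀, hφ₀⟩ := exists_isFrobeniusAt A₀ hp hA₀
  obtain ⟨w, g, hg, hrow⟩ := exists_functional hp2 hΔ hA₀ hc4 nd
  refine ⟨sgn nd φ₀, sgn_cases nd φ₀, fun P hP => ?_⟩
  obtain ⟨τ, rfl⟩ := exists_smul_eq_of_liesOverPrime hp hA₀ hP
  let G : GL (Fin 2) ℤ_[p] :=
    ⟨!![g 0, g 1; -w 1, w 0], !![w 0, -g 1; w 1, g 0],
      by ext a b; fin_cases a <;> fin_cases b <;> simp [Matrix.mul_apply, Fin.sum_univ_two] <;>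
          first | linear_combination hg | linear_combination -hg | ring1,
      by ext a b; fin_cases a <;> fin_cases b <;> simp [Matrix.mul_apply, Fin.sum_univ_two] <;>
          first | linear_combination hg | linear_combination -hg | ring1⟩
  let T : GL (Fin 2) ℤ_[p] :=
    ⟨tateRep p W hΔ τ⁻¹, tateRep p W hΔ τ, by rw [← map_mul, inv_mul_cancel, _root_.map_one],
      by rw [← map_mul, mul_inv_cancel, _root_.map_one]⟩
  refine ⟨G * T, fun σ hσ => ?_⟩
  set σ' := τ⁻¹ * σ * τ with hσ'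
  have hd : σ' ∈ A₀.decompositionSubgroup ℚ := by
    rw [MulAction.mem_stabilizer_iff, hσ', mul_smul, mul_smul,
      MulAction.mem_stabilizer_iff.1 hσ, inv_smul_smul]
  have hconj : ((G * T : GL (Fin 2) ℤ_[p]) : Matrix (Fin 2) (Fin 2) ℤ_[p]) * tateRep p W hΔ σ *
      ((G * T)⁻¹ : GL (Fin 2) ℤ_[p]) =
      !![g 0, g 1; -w 1, w 0] * tateRep p W hΔ σ' * !![w 0, -g 1; w 1, g 0] := by
    rw [mul_inv_rev, Units.val_mul, Units.val_mul]
    show !![g 0, g 1; -w 1, w 0] * tateRep p W hΔ τ⁻¹ * tateRep p W hΔ σ *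
      (tateRep p W hΔ τ * !![w 0, -g 1; w 1, g 0]) = _
    rw [hσ', map_mul, map_mul]
    simp only [mul_assoc]
  have h0 := hrow σ' hd 0
  have h1 := hrow σ' hd 1
  simp only [Matrix.cons_val_zero, Matrix.cons_val_one] at h0 h1
  have e10 : (!![g 0, g 1; -w 1, w 0] * tateRep p W hΔ σ' * !![w 0, -g 1; w 1, g 0]) 1 0 = 0 := by
    simp [Matrix.mul_apply, Matrix.vecMul, dotProduct, Fin.sum_univ_two]
    linear_combination (w 0) * h0 + (w 1) * h1
  have e11 : (!![g 0, g 1; -w 1, w 0] * tateRep p W hΔ σ' * !![w 0, -g 1; w 1, g 0]) 1 1 =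
      (sgn nd σ' : ℤ_[p]) := by
    simp [Matrix.mul_apply, Matrix.vecMul, dotProduct, Fin.sum_univ_two]
    linear_combination (-(g 1)) * h0 + (g 0) * h1 + (sgn nd σ' : ℤ_[p]) * hg
  rw [hconj]
  refine ⟨e10, fun hi => ?_, fun hF => ?_⟩
  · have h := mem_inertiaSubgroupIn_smul hi τ⁻¹
    rw [inv_smul_smul, inv_inv] at h
    rw [e11, sgn_eq_one_of_inertia nd hp hA₀ h, Int.cast_one]
  · have h := isFrobeniusAt_smul hF τ⁻¹
    rw [inv_smul_smul, inv_inv] at h
    rw [e11, sgn_eq_of_frobenius nd hp hA₀ h hφ₀]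

end FLTAgent.TateLocal
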