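import Fermat.Agent.TateLocal.FlatModel
import Fermat.Agent.ConductorMatch.TateMatrix
import Fermat.Agent.ModularityLifting.Setup

/-!
# Flatness at a prime of good reduction

The torsion at a prime of good reduction has a finite flat model, so the Tate module is flat there
(`hasFlatModel_torsion`, `flatAt_tateRep`).
-/

set_option autoImplicit false

noncomputable section

open WeierstrassCurve WeierstrassCurve.Affine WeierstrassCurve.Affine.Point
open scoped WeierstrassCurve.Affine

namespace FLTAgent.TateLocal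

open FLTAgent.Density FLTAgent.ECTorsion FLTAgent.ECReduction FLTAgent.FiniteFlat
  FLTAgent.ConductorMatch

/-- The Galois action on `E[n]` as additive endomorphisms. -/
def torAct (W : WeierstrassCurve ℤ) (n : ℕ) : GalQ →* AddMonoid.End (Tor W n) :=
  DistribMulAction.toAddMonoidEnd GalQ (Tor W n)

theorem hasFlatModel_torsion (W : WeierstrassCurve ℤ) {ℓ : ℕ} [Fact ℓ.Prime] (hℓ2 : ℓ ≠ 2)
    (hgood : W.IsGoodPrimeFor ℓ) {n : ℕ} (hn : n ≠ 0) : HasFlatModel ℓ (torAct W n) := by
  classical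
  have hℓ : ℓ.Prime := Fact.out
  obtain ⟨A, hA⟩ := exists_liesOverPrime hℓ
  have hΔ : W.Δ ≠ 0 := fun h => hgood (by rw [h]; exact dvd_zero _)
  have := ConductorMatch.isElliptic (W := W) hΔ
  have : (W.map (Int.castRingHom A)).IsElliptic := ⟨by
    rw [WeierstrassCurve.map_Δ]
    exact FLTAgent.Deuring.isUnit_intCast_of_not_dvd hA hgood⟩
  have h2 : (2 : IsLocalRing.ResidueField A) ≠ 0 := by
    exact_mod_cast FLTAgent.Deuring.natCast_residue_ne_zero hA (m := 2)
      fun h => hℓ2 ((Nat.prime_dvd_prime_iff_eq hℓ Nat.prime_two).1 h)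
  have : Finite (Tor W n) := finite_torsionBy (EQ W) (Nat.cast_ne_zero.mpr hn)
  have hcont : GaloisFactorsThroughFiniteLevel (torAct W n) := by
    obtain ⟨E, hE, h⟩ := exists_fixingSubgroup_smul_eq (S := ℚ) (K := Qbar) (EQ W) (n := n)
    exact ⟨E, hE, fun σ hσ => AddMonoidHom.ext fun z =>
      h σ ((IntermediateField.mem_fixingSubgroup_iff _ _).mpr hσ) z⟩
  have key : ∀ (E' : WeierstrassCurve Qbar), (W.map (Int.castRingHom A)).map A.subtype = E' →
      ∀ ι : Tor W n →+ E'.toAffine.Point, Function.Injective ι →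
      (∀ σ : GalQ, ∀ z a b h, ι z = Point.some a b h →
        ∃ h', ι (σ • z) = Point.some (σ a) (σ b) h') → HasFlatModel ℓ (torAct W n) := by
    rintro _ rfl ι hinj hmap
    refine hasFlatModel_of_points (W.map (Int.castRingHom A)) hA h2 hcont ι hinj
      fun τ hτ z i => ?_
    show (Proj.rep _ (ι (τ • z)) i : Qbar) = _
    rcases hz : ι z with _ | ⟨a, b, h⟩
    · have hz0 : z = 0 := hinj (hz.trans (_root_.map_zero ι).symm)
      have e : ι (τ • z) = 0 := by rw [hz0, smul_zero, _root_.map_zero]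
      rw [e]
      change _ = τ ((Proj.rep (W.map (Int.castRingHom A)) 0 i : A) : Qbar)
      rw [Proj.rep_zero]
      fin_cases i <;> simp
    · obtain ⟨h', e⟩ := hmap τ z a b h hz
      rw [e]
      have hd := (mem_inertiaSubgroupIn_iff.1 hτ).1
      have m1 : ∀ x, τ x ∈ A ↔ x ∈ A := apply_mem_iff hd
      simp only [Proj.rep]
      by_cases c1 : a ∈ A ∧ b ∈ A
      · rw [dif_pos c1, dif_pos ⟨(m1 a).2 c1.1, (m1 b).2 c1.2⟩]
        fin_cases i <;> simp
      · rw [dif_neg c1, dif_neg fun hc => c1 ⟨(m1 a).1 hc.1, (m1 b).1 hc.2⟩]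
        by_cases c2 : a / b ∈ A ∧ b⁻¹ ∈ A
        · rw [dif_pos c2, dif_pos ⟨by rw [← map_div₀, m1]; exact c2.1,
            by rw [← map_inv₀, m1]; exact c2.2⟩]
          fin_cases i <;> simp
        · rw [dif_neg c2, dif_neg fun hc => c2 ⟨(m1 _).1 (by rw [map_div₀]; exact hc.1),
            (m1 _).1 (by rw [map_inv₀]; exact hc.2)⟩]
          simp
  refine key _ map_subtype_eq (Tor W n).subtype.toAddMonoidHom Subtype.val_injective ?_
  intro σ z a b h hz
  exact ⟨ECReduction.nonsingular_smul σ h, by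
    show ((σ • z : Tor W n) : Pt W) = _
    rw [ConductorMatch.coe_smul, show (z : Pt W) = Point.some a b h from hz]
    rfl⟩

variable {p : ℕ} [Fact p.Prime]

/-- The Tate module is flat at `p` when the curve has good reduction there. -/
theorem flatAt_tateRep (W : WeierstrassCurve ℤ) (hp2 : p ≠ 2) (hΔ : W.Δ ≠ 0)
    (hgood : W.IsGoodPrimeFor p) : ModularityLifting.FlatAt (tateRep p W hΔ) p := by
  intro I hI
  have hp : p.Prime := Fact.out
  have := hI
  have := ConductorMatch.isElliptic (W := W) hΔ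
  obtain ⟨k, hk⟩ : ∃ k, ((p ^ k : ℕ) : ℤ_[p]) ∈ I := by
    obtain ⟨a, b, hne, hab⟩ := Finite.exists_ne_map_eq_of_infinite
      (fun j : ℕ => Ideal.Quotient.mk I ((p : ℤ_[p]) ^ j))
    wlog hlt : a < b generalizing a b
    · exact this b a hne.symm hab.symm (by omega)
    refine ⟨a, ?_⟩
    rw [Ideal.Quotient.eq] at hab
    obtain ⟨d, rfl⟩ := Nat.exists_eq_add_of_lt hlt
    have hu : IsUnit (1 - (p : ℤ_[p]) ^ (d + 1)) := by
      refine IsLocalRing.notMem_maximalIdeal.1 fun hm => ?_
      have h1 : (p : ℤ_[p]) ^ (d + 1) ∈ IsLocalRing.maximalIdeal ℤ_[p] := by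
        refine Ideal.pow_mem_of_mem _ ?_ _ d.succ_pos
        rw [PadicInt.maximalIdeal_eq_span_p]; exact Ideal.mem_span_singleton_self _
      have := Ideal.add_mem _ hm h1
      rw [sub_add_cancel] at this
      exact (IsLocalRing.maximalIdeal.isMaximal ℤ_[p]).ne_top ((Ideal.eq_top_iff_one _).2 this)
    rw [show (p : ℤ_[p]) ^ a - (p : ℤ_[p]) ^ (a + d + 1) =
      (p : ℤ_[p]) ^ a * (1 - (p : ℤ_[p]) ^ (d + 1)) by ring] at hab
    rw [Nat.cast_pow]
    exact ((Ideal.mul_unit_mem_iff_mem I hu).1 hab)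
  have : NeZero (p ^ k) := ⟨pow_ne_zero _ hp.ne_zero⟩
  have : Finite (Tor W (p ^ k)) := finite_torsionBy (EQ W) (Nat.cast_ne_zero.mpr (NeZero.ne _))
  have hker : RingHom.ker (PadicInt.toZModPow (p := p) k) ≤ RingHom.ker (Ideal.Quotient.mk I) := by
    rw [PadicInt.ker_toZModPow, Ideal.span_le, Set.singleton_subset_iff, SetLike.mem_coe,
      RingHom.mem_ker, ← Nat.cast_pow, Ideal.Quotient.eq_zero_iff_mem]
    exact hk
  obtain ⟨g, hg⟩ : ∃ g : ZMod (p ^ k) →+* ℤ_[p] ⧸ I,
      ∀ x, g (PadicInt.toZModPow k x) = Ideal.Quotient.mk I x := by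
    have hsurj : Function.Surjective (PadicInt.toZModPow (p := p) k) :=
      ZMod.ringHom_surjective _
    exact ⟨RingHom.liftOfSurjective _ hsurj ⟨Ideal.Quotient.mk I, hker⟩,
      fun x => RingHom.liftOfRightInverse_comp_apply _ _ _ _ x⟩
  set b := tateBasis p W hΔ k
  let π : Tor W (p ^ k) →+ (Fin 2 → ℤ_[p] ⧸ I) :=
    { toFun := fun z i => g (b.equivFun z i)
      map_zero' := by funext i; simp
      map_add' := fun z z' => by funext i; simp }
  refine (hasFlatModel_torsion W hp2 hgood (NeZero.ne (p ^ k))).of_surjective π (fun σ z => ?_) ?_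
  · funext i
    show g (b.equivFun (σ • z) i) = _
    have e : (levelRep p W hΔ k σ).mulVec (b.equivFun z) = b.equivFun (σ • z) :=
      LinearMap.toMatrix_mulVec_repr b b _ z
    rw [← e]
    show g _ = Matrix.toLin' ((Ideal.Quotient.mk I).mapMatrix (tateRep p W hΔ σ)) (π z) i
    rw [Matrix.toLin'_apply, RingHom.map_mulVec, ← map_tateRep]
    exact congrFun (congrArg₂ Matrix.mulVec (Matrix.ext fun a c => hg _) rfl) i
  · intro y
    choose x hx using fun i => Ideal.Quotient.mk_surjective (y i)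
    refine ⟨b.equivFun.symm fun i => PadicInt.toZModPow k (x i), funext fun i => ?_⟩
    show g (b.equivFun _ i) = _
    rw [LinearEquiv.apply_symm_apply, hg, hx]

end FLTAgent.TateLocal
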