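import Fermat.Agent.TateLocal.Multiplicative
import Fermat.Agent.TateLocal.AtP
import Fermat.Agent.TateLocal.GoodFlat

/-!
# The `p`-adic representation of a semistable curve

The `p`-adic representation of a semistable integral model with all the local properties used by
modularity lifting.
-/

set_option autoImplicit false

noncomputable section

open WeierstrassCurve WeierstrassCurve.Affine WeierstrassCurve.Affine.Point
open scoped WeierstrassCurve.Affine

namespace FLTAgent.ModularityLifting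

open FLTAgent.Density FLTAgent.DefRing FLTAgent.ConductorMatch FLTAgent.TateLocal

variable (p : ℕ) [Fact p.Prime]

theorem toZMod_eq_of_toZModPow (h : p ^ 1 = p) (x : ℤ_[p]) :
    PadicInt.toZMod x = ZMod.castHom h.symm.dvd (ZMod p) (PadicInt.toZModPow 1 x) := by
  have : NeZero (p ^ 1) := ⟨pow_ne_zero _ (Fact.out : p.Prime).ne_zero⟩
  set m := (PadicInt.toZModPow 1 x).val with hm
  have hx : x - (m : ℤ_[p]) ∈ Ideal.span {(p : ℤ_[p]) ^ 1} := by
    rw [← PadicInt.ker_toZModPow, RingHom.mem_ker, map_sub, map_natCast, hm,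
      ZMod.natCast_zmod_val, sub_self]
  rw [pow_one, ← PadicInt.maximalIdeal_eq_span_p, ← PadicInt.ker_toZMod, RingHom.mem_ker,
    map_sub, map_natCast, sub_eq_zero] at hx
  rw [hx, hm]
  conv_rhs => rw [← ZMod.natCast_zmod_val (PadicInt.toZModPow 1 x), map_natCast]

/-- The reduction of the Tate module is the representation on the `p`-torsion in some basis. -/
theorem exists_torsion_basis (W : WeierstrassCurve ℤ) (hΔ : W.Δ ≠ 0) :
    ∃ b : Module.Basis (Fin 2) (ZMod p) (GaloisImage.Tors W p),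
      ∀ σ, mapRep PadicInt.toZMod (tateRep p W hΔ) σ = GaloisImage.matRep W p b σ := by
  have key : ∀ (n : ℕ) (h : p ^ 1 = n), ∃ b : Module.Basis (Fin 2) (ZMod n) (Tor W n),
      ∀ σ, (tateRep p W hΔ σ).map
          (fun x => ZMod.castHom h.symm.dvd (ZMod n) (PadicInt.toZModPow 1 x)) =
        LinearMap.toMatrix b b (galoisRepModuleEnd ℚ (EQ W) n σ) := by
    rintro _ rfl
    refine ⟨tateBasis p W hΔ 1, fun σ => ?_⟩
    rw [← levelRep_apply, ← map_tateRep]
    ext i j
    simp
  obtain ⟨b, hb⟩ := key p (pow_one p)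
  refine ⟨b, fun σ => ?_⟩
  rw [mapRep_eq_map, show (PadicInt.toZMod : ℤ_[p] → ZMod p) = _ from
    funext (toZMod_eq_of_toZModPow p (pow_one p))]
  exact hb σ

theorem detCyclotomic_tateRep (W : WeierstrassCurve ℤ) (hΔ : W.Δ ≠ 0) :
    DetCyclotomic (tateRep p W hΔ) p := by
  intro n σ a ha
  rw [det_tateRep, Nat.cast_pow, ← PadicInt.ker_toZModPow, RingHom.mem_ker, map_sub,
    GaloisAttach.toZModPow_cyc_eq p σ (m := a) ha, map_natCast, sub_self]

theorem absIrreducibleOn_tateRep (hp2 : p ≠ 2) (W : WeierstrassCurve ℤ) (hΔ : W.Δ ≠ 0)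
    (hirr : W.ModRepIsIrreducible p) :
    AbsIrreducibleOn (mapRep PadicInt.toZMod (tateRep p W hΔ)) ⊤ := by
  obtain ⟨b, hb⟩ := exists_torsion_basis p W hΔ
  intro K _ ι v hv
  let : Algebra (ZMod p) K := ι.toAlgebra
  by_contra hne
  refine GaloisImage.noStableLine_extRep_matRep b hΔ hp2 hirr K v ⟨hne, fun σ hσ => ?_⟩
  obtain ⟨c, hc⟩ := hv σ hσ
  refine ⟨c, ?_⟩
  rw [hb] at hc
  exact hc

/-- Unramifiedness of the torsion at `q` is that of the reduced Tate module. -/
theorem galoisRepUnramifiedAt_iff (W : WeierstrassCurve ℤ) (hΔ : W.Δ ≠ 0) (q : ℕ) :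
    WeierstrassCurve.Affine.Point.GaloisRepUnramifiedAt (K := Qbar) ℚ
      (W.map (Int.castRingHom ℚ)) p q ↔
      UnramifiedAt (mapRep PadicInt.toZMod (tateRep p W hΔ)) q := by
  obtain ⟨b, hb⟩ := exists_torsion_basis p W hΔ
  refine forall_congr' fun P => imp_congr_right fun _ => forall₂_congr fun σ _ => ?_
  rw [hb]
  constructor
  · intro h
    show LinearMap.toMatrix b b _ = 1
    rw [← LinearMap.toMatrix_one b]
    exact congrArg _ (LinearMap.ext fun z => h z)
  · intro h z
    have h1 : galoisRepModuleEnd ℚ (W.map (Int.castRingHom ℚ)).toAffine p σ = 1 :=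
      (LinearMap.toMatrix b b).injective (h.trans (LinearMap.toMatrix_one b).symm)
    exact LinearMap.congr_fun h1 z

end FLTAgent.ModularityLifting
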