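import Fermat.Agent.TateLocal.NodeRatio
import Fermat.Agent.ECReduction.Inertia

/-!
# Automorphisms at a node

Valuation-preserving automorphisms at a node: they fix the node, fix or exchange the two tangents,
act on the parameter accordingly, and act on odd torsion modulo `E₀` by that sign (`sgn`).
-/

set_option autoImplicit false

noncomputable section

namespace FLTAgent.TateLocal

open WeierstrassCurve WeierstrassCurve.Affine FLTAgent.ECReduction

variable {F K : Type*} [Field F] [Field K] [Algebra F K] {A : ValuationSubring K}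
  {W : WeierstrassCurve K} {σ : K ≃ₐ[F] K} (nd : NodeData A W)

local notation "v" => A.valuation

/-- `σ` preserves the valuation. -/
def ValPres (A : ValuationSubring K) (σ : K ≃ₐ[F] K) : Prop :=
  ∀ x, A.valuation (σ x) = A.valuation x

variable (hσ : ValPres A σ) (hf : FixesCoeffs W σ)

include hf in
theorem map_dX_dY (x y : K) :
    dX W (σ x) (σ y) = σ (dX W x y) ∧ dY W (σ x) (σ y) = σ (dY W x y) := by
  constructor <;>
    simp only [dX, dY, map_add, map_sub, map_mul, map_pow, map_ofNat, hf.h₁, hf.h₂, hf.h₃, hf.h₄]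

include hσ hf in
theorem resSingular_map_of_valPres {x y : K} :
    ResSingular A W (σ x) (σ y) ↔ ResSingular A W x y := by
  rw [ResSingular, ResSingular, (map_dX_dY hf x y).1, (map_dX_dY hf x y).2, hσ, hσ, hσ, hσ]

include hσ hf in
/-- The node is fixed. -/
theorem map_node : σ nd.r = nd.r ∧ σ nd.t = nd.t := by
  obtain ⟨gX, gY⟩ := map_dX_dY hf nd.r nd.t
  rw [nd.eX, _root_.map_zero] at gX
  rw [nd.eY, _root_.map_zero] at gY
  have hdY := nd.dY_eq (σ nd.r) (σ nd.t)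
  have hdX := nd.dX_eq (σ nd.r) (σ nd.t)
  rw [gY] at hdY
  rw [gX, gY, mul_zero, add_zero] at hdX
  set X := nd.X (σ nd.r) with hX
  set Y := nd.Y (σ nd.r) (σ nd.t) with hY
  have hc' : σ nd.c = (σ nd.r) ^ 3 + W.a₂ * (σ nd.r) ^ 2 + W.a₄ * σ nd.r + W.a₆ - (σ nd.t) ^ 2
      - W.a₁ * σ nd.r * σ nd.t - W.a₃ * σ nd.t := by
    simp only [NodeData.c, map_add, map_sub, map_mul, map_pow, hf.h₁, hf.h₂, hf.h₃, hf.h₄, hf.h₆]
  have e1 := nd.eY
  have e2 := nd.eX
  simp only [dY] at e1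
  simp only [dX] at e2
  have heq : Y * (Y + nd.u * X) = X ^ 3 + (nd.c - σ nd.c) := by
    rw [hc', hX, hY]
    simp only [NodeData.X, NodeData.Y, NodeData.u, NodeData.c]
    linear_combination -(σ nd.t - nd.t) * e1 - (σ nd.r - nd.r) * e2 - (σ nd.r - nd.r) ^ 2 * nd.es
  have hu := nd.val_u
  have hu0 := ne_zero_of_val_eq_one A hu
  have hX0 : X = 0 := by
    have h0 : X * (6 * X + nd.u ^ 2) = 0 := by linear_combination 2 * hdX - nd.u * hdY
    refine (mul_eq_zero.1 h0).resolve_right fun h6 => ?_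
    have hcs : v (nd.c - σ nd.c) < 1 := val_sub_lt A nd.val_c ((hσ _).trans_lt nd.val_c)
    have h3 : nd.u ^ 2 * X ^ 3 = 2 * (nd.u ^ 2 * (nd.c - σ nd.c)) := by
      linear_combination 2 * nd.u ^ 2 * heq +
        2 * (nd.u * Y + 3 * X ^ 2 + nd.u ^ 2 * X) * hdX - 3 * X ^ 3 * h6
    have h3' : v X ^ 3 < 1 := by
      have h := congrArg v h3
      rw [map_mul, map_pow, hu, one_pow, one_mul, map_pow] at h
      rw [h]
      exact val_mul_lt_right A (val_ofNat_le A 2)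
        (val_mul_lt_right A (val_pow_le A hu.le 2) hcs)
    have hXlt : v X < 1 := lt_of_not_ge fun hge => h3'.not_ge (one_le_pow₀ hge)
    have h2 : v (nd.u ^ 2) < 1 := by
      rw [show nd.u ^ 2 = -(6 * X) by linear_combination h6, A.valuation.map_neg]
      exact val_mul_lt_right A (val_ofNat_le A 6) hXlt
    rw [map_pow, hu, one_pow] at h2
    exact lt_irrefl _ h2
  have hY0 : Y = 0 := by
    refine (mul_eq_zero.1 (?_ : nd.u * Y = 0)).resolve_left hu0
    rw [hX0] at hdX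
    linear_combination -hdX
  have hr : σ nd.r = nd.r := sub_eq_zero.1 hX0
  refine ⟨hr, ?_⟩
  rw [hY, NodeData.Y, hr, sub_self, mul_zero, sub_zero] at hY0
  exact sub_eq_zero.1 hY0

include hσ hf in
/-- The tangents are fixed or exchanged. -/
theorem map_slope_cases : σ nd.s = nd.s ∨ σ nd.s = -W.a₁ - nd.s := by
  have h := congrArg σ nd.es
  simp only [map_add, map_mul, map_pow, map_ofNat, hf.h₁, hf.h₂, (map_node nd hσ hf).1] at h
  have e : (σ nd.s - nd.s) * (σ nd.s - (-W.a₁ - nd.s)) = 0 := by linear_combination h - nd.es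
  exact (mul_eq_zero.1 e).imp sub_eq_zero.1 sub_eq_zero.1

/-- The sign recording whether the tangents are fixed. -/
def sgn (σ : K ≃ₐ[F] K) : ℤ :=
  open scoped Classical in if σ nd.s = nd.s then 1 else -1

theorem sgn_cases (σ : K ≃ₐ[F] K) : sgn nd σ = 1 ∨ sgn nd σ = -1 := by
  rw [sgn]; split_ifs <;> simp

theorem sgn_of_fix (h : σ nd.s = nd.s) : sgn nd σ = 1 := if_pos h

include hσ hf in
theorem map_coord (x y : K) :
    nd.X (σ x) = σ (nd.X x) ∧
    (σ nd.s = nd.s → nd.Y (σ x) (σ y) = σ (nd.Y x y) ∧ Z nd (σ x) (σ y) = σ (Z nd x y)) ∧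
    (σ nd.s = -W.a₁ - nd.s →
      nd.Y (σ x) (σ y) = σ (Z nd x y) ∧ Z nd (σ x) (σ y) = σ (nd.Y x y)) := by
  obtain ⟨hr, ht⟩ := map_node nd hσ hf
  refine ⟨by simp only [NodeData.X, map_sub, hr], fun h => ⟨?_, ?_⟩, fun h => ⟨?_, ?_⟩⟩ <;>
    simp only [Z, NodeData.Y, NodeData.X, NodeData.u, map_sub, map_mul, map_add, map_ofNat, hr, ht,
      h, hf.h₁] <;>
    ring

variable [DecidableEq K] {R : Type*} [CommRing R] [Algebra R F] [Algebra R K] [IsScalarTower R F K]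
  {W₀ : Affine R} (nd₀ : NodeData A (W₀⁄K : WeierstrassCurve K))

theorem inE0_smul_of_valPres (hσ : ValPres A σ) {P : (W₀⁄K).Point}
    (hP : InE0 A (W₀⁄K) P) : InE0 A (W₀⁄K) (σ • P) := by
  rcases P with _ | ⟨x, y, h⟩
  · exact hP
  · rw [smul_some, inE0_some, resSingular_map_of_valPres hσ (fixesCoeffs σ)]
    exact hP

theorem inE1_smul_of_valPres (hσ : ValPres A σ) {P : (W₀⁄K).Point}
    (hP : InE1 A (W₀⁄K) P) : InE1 A (W₀⁄K) (σ • P) := by
  rcases P with _ | ⟨x, y, h⟩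
  · exact hP
  · rw [smul_some, inE1_some, hσ]
    exact hP

/-- The parameter of the image of a point. -/
theorem ratio_smul (hσ : ValPres A σ) (P : (W₀⁄K).Point) :
    ratio nd₀ (σ • P) = σ (ratio nd₀ P) ^ sgn nd₀ σ := by
  rcases P with _ | ⟨x, y, h⟩
  · show (1 : K) = σ 1 ^ _
    rw [_root_.map_one, one_zpow]
  obtain ⟨-, h1, h2⟩ := map_coord nd₀ hσ (fixesCoeffs σ) x y
  rw [smul_some, ratio_some, ratio_some, sgn, map_div₀]
  split_ifs with hs
  · rw [(h1 hs).1, (h1 hs).2, zpow_one]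
  · have h2' := h2 ((map_slope_cases nd₀ hσ (fixesCoeffs σ)).resolve_left hs)
    rw [h2'.1, h2'.2, zpow_neg, zpow_one, inv_div]

/-- On odd torsion modulo `E₀` the action is the sign. -/
theorem smul_sub_sgn_inE0 (hW : IntAt A (W₀⁄K)) (hσ : ValPres A σ) {P : (W₀⁄K).Point} {m : ℕ}
    (hm : Odd m) (hP : m • P = 0) : InE0 A (W₀⁄K) (σ • P - sgn nd₀ σ • P) := by
  have hf : FixesCoeffs (W₀⁄K) σ := fixesCoeffs σ
  have hsub : ∀ Q : (W₀⁄K).Point, InE0 A (W₀⁄K) Q →
      InE0 A (W₀⁄K) (σ • Q - sgn nd₀ σ • Q) := fun Q hQ =>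
    (inE0_smul_of_valPres hσ hQ).sub hW
      (mem_E0.1 (zsmul_mem (mem_E0 (hW := hW).2 hQ) _))
  by_cases hE : InE0 A (W₀⁄K) P
  · exact hsub P hE
  have hplus : ∀ (Q : (W₀⁄K).Point) γ, nd₀.Plus Q γ →
      InE0 A (W₀⁄K) (σ • Q - sgn nd₀ σ • Q) := by
    intro Q γ hQ
    obtain ⟨x, y, h, hQe, hγ, hX, hY⟩ := id hQ
    obtain ⟨eX, h1, h2⟩ := map_coord nd₀ hσ hf x y
    rw [sgn]
    split_ifs with hs
    · rw [one_zsmul]
      refine NodeData.Plus.sub_inE0 nd₀ hW (γ := γ) ?_ hQ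
      subst hQe
      exact ⟨_, _, _, smul_some σ h, hγ, by rw [eX, hσ, hX], by rw [(h1 hs).1, hσ]; exact hY⟩
    · have h2' := h2 ((map_slope_cases nd₀ hσ hf).resolve_left hs)
      rw [neg_one_zsmul, show σ • Q - -Q = -(-(σ • Q) - Q) by abel]
      refine (NodeData.Plus.sub_inE0 nd₀ hW (γ := γ) ?_ hQ).neg hW
      subst hQe
      refine ⟨σ x, _, _, by rw [smul_some]; exact Point.neg_some _, hγ, by rw [eX, hσ, hX], ?_⟩
      rw [nd₀.negY_eq, show -nd₀.Y (σ x) (σ y) - nd₀.u * nd₀.X (σ x) = -Z nd₀ (σ x) (σ y) by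
        rw [Z]; ring, A.valuation.map_neg, h2'.2, hσ]
      exact hY
  rcases nd₀.trichotomy hW hE with ⟨γ, h⟩ | ⟨γ, h⟩ | h
  · exact hplus P γ h
  · have := (hplus _ γ h).neg hW
    rwa [smul_neg, zsmul_neg, show -(-(σ • P) - -(sgn nd₀ σ • P)) = σ • P - sgn nd₀ σ • P by abel]
      at this
  · have h2 : InE0 A (W₀⁄K) ((σ • P - sgn nd₀ σ • P) + (σ • P - sgn nd₀ σ • P)) := by
      have := hsub _ (h.two_inE0 nd₀ hW)
      rwa [smul_add, zsmul_add, add_sub_add_comm] at this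
    have hm0 : m • (σ • P - sgn nd₀ σ • P) = 0 := by
      rw [nsmul_sub, smul_comm m (sgn nd₀ σ), hP, zsmul_zero, sub_zero]
      exact (map_nsmul (DistribSMul.toAddMonoidHom (W₀⁄K).Point σ) m P).symm.trans
        (by rw [hP, _root_.map_zero])
    obtain ⟨k, rfl⟩ := hm
    have : σ • P - sgn nd₀ σ • P =
        -(k • ((σ • P - sgn nd₀ σ • P) + (σ • P - sgn nd₀ σ • P))) := by
      rw [add_smul, one_smul, mul_smul, two_smul] at hm0
      rw [smul_add]
      exact eq_neg_of_add_eq_zero_right hm0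
    rw [this, ← mem_E0 (hW := hW)]
    exact neg_mem (nsmul_mem (mem_E0.2 h2) k)

end FLTAgent.TateLocal
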