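import Fermat.Agent.TateLocal.Reduction
import Fermat.Agent.FiniteFlat.JZeroModel
import Fermat.Agent.FiniteFlat.Operations

/-!
# Finite flat models of finite subgroups

A finite subgroup of a curve with good reduction has a finite flat model: the normalised projective
coordinates are a coordinate system in which addition is regular (`hasFlatModel_of_points`).
-/

set_option autoImplicit false

noncomputable section

open WeierstrassCurve GaloisRep
open scoped WeierstrassCurve.Projective

namespace FLTAgent.TateLocal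

open FLTAgent.Density FLTAgent.ECReduction FLTAgent.FiniteFlat

variable {A : ValuationSubring Qbar}

local notation "res" => IsLocalRing.residue A

/-- A linear form with coefficients in powers of an element of a large set is invertible on finitely
many primitive vectors. -/
theorem exists_generic {Y : Type} [Finite Y] {d : ℕ} {S : Set A} (hS : (res '' S).Infinite)
    (u : Y → Fin d → A) (hu : ∀ y, ∃ i, IsUnit (u y i)) :
    ∃ ζ ∈ S, ∀ y, IsUnit (∑ i, u y i * ζ ^ (i : ℕ)) := by
  classical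
  let f : Y → Polynomial (IsLocalRing.ResidueField A) := fun y =>
    ∑ i, Polynomial.C (res (u y i)) * Polynomial.X ^ (i : ℕ)
  have hf : ∀ y, f y ≠ 0 := by
    intro y h0
    obtain ⟨i, hi⟩ := hu y
    have := congrArg (Polynomial.coeff · (i : ℕ)) h0
    simp only [f, Polynomial.finsetSum_coeff, Polynomial.coeff_C_mul, Polynomial.coeff_X_pow,
      Polynomial.coeff_zero, mul_ite, mul_one, mul_zero, Fin.val_inj, Finset.sum_ite_eq,
      Finset.mem_univ, if_true] at this
    exact (hi.map res).ne_zero this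
  have hfin : (⋃ y, {a | (f y).IsRoot a}).Finite :=
    Set.finite_iUnion fun y => Polynomial.finite_setOfPred_isRoot (hf y)
  obtain ⟨_, ⟨ζ, hζ, rfl⟩, hnot⟩ := hS.exists_notMem_finite hfin
  refine ⟨ζ, hζ, fun y => ?_⟩
  rw [← IsLocalRing.notMem_maximalIdeal, ← IsLocalRing.residue_eq_zero_iff]
  intro h0
  refine hnot (Set.mem_iUnion.2 ⟨y, ?_⟩)
  show (f y).IsRoot (res ζ)
  simp only
      [f, Polynomial.IsRoot, Polynomial.eval_finsetSum, Polynomial.eval_mul, Polynomial.eval_C,
    Polynomial.eval_pow, Polynomial.eval_X, ← map_pow, ← map_mul, ← map_sum]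
  exact h0

variable (W₁ : WeierstrassCurve A) [W₁.IsElliptic]

local notation "E" => W₁.map A.subtype
local notation "Eb" => W₁.map (IsLocalRing.residue A)

open Proj

/-- An auxiliary point separating the three additions. -/
theorem exists_aux_point [DecidableEq (IsLocalRing.ResidueField A)]
    (h2 : (2 : IsLocalRing.ResidueField A) ≠ 0) (P Q : (E).toAffine.Point) :
    ∃ R : (E).toAffine.Point, red W₁ P ≠ red W₁ R ∧ red W₁ Q ≠ red W₁ (-R) ∧
      red W₁ (P + R) ≠ red W₁ (Q + -R) := by
  classical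
  have := FLTAgent.Deuring.isAlgClosed_residueField A
  set D := red W₁ Q - red W₁ P
  let absc : (Eb).toAffine.Point → IsLocalRing.ResidueField A
    | .zero => 0
    | .some x _ _ => x
  have hbad : {z : (Eb).toAffine.Point | z + z = D}.Finite := by
    rcases Set.eq_empty_or_nonempty {z : (Eb).toAffine.Point | z + z = D} with h | ⟨z₀, hz₀⟩
    · rw [h]; exact Set.finite_empty
    have : ((Eb).toAffine.baseChange (IsLocalRing.ResidueField A)).IsElliptic :=
      inferInstanceAs ((Eb).map (RingHom.id _)).IsElliptic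
    have hfin2 := ECTorsion.finite_torsionBy (K := IsLocalRing.ResidueField A) (Eb).toAffine
      (n := 2) (by exact_mod_cast h2)
    have hT : {z : (Eb).toAffine.Point | z + z = 0}.Finite := by
      have key : ∀ (V : WeierstrassCurve (IsLocalRing.ResidueField A)),
          ((Eb).toAffine.baseChange (IsLocalRing.ResidueField A) : WeierstrassCurve _) = V →
          {z : V.toAffine.Point | z + z = 0}.Finite := by
        rintro _ rfl
        have hset :
            {z : ((Eb).toAffine.baseChange (IsLocalRing.ResidueField A)).Point | 2 • z = 0} =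
            ↑(Submodule.torsionBy ℤ ((Eb).toAffine.baseChange (IsLocalRing.ResidueField A)).Point
                (2 : ℕ)) :=
          Set.ext fun z => (ECTorsion.mem_torsionBy_iff_nsmul 2 z).symm
        have h : Finite
            {z : ((Eb).toAffine.baseChange (IsLocalRing.ResidueField A)).Point | 2 • z = 0} := by
          rw [hset]; exact hfin2
        refine Set.Finite.subset (Set.finite_coe_iff.mp h) fun z hz => ?_
        show 2 • z = 0
        rw [two_nsmul]; exact hz
      exact key _ (WeierstrassCurve.map_id _)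
    refine Set.Finite.of_finite_image (f := fun z => z - z₀) (hT.subset ?_)
      sub_left_injective.injOn
    rintro _ ⟨z, hz, rfl⟩
    show z - z₀ + (z - z₀) = 0
    rw [sub_add_sub_comm, hz, hz₀, sub_self]
  have hS : ({absc (red W₁ P), absc (red W₁ Q)} ∪
      absc '' {z : (Eb).toAffine.Point | z + z = D}).Finite :=
    ((Set.finite_singleton _).insert _).union (hbad.image _)
  obtain ⟨xb, hxb⟩ := hS.exists_notMem
  obtain ⟨x, rfl⟩ := IsLocalRing.residue_surjective xb
  let a : Qbar := (W₁.a₁ : Qbar) * x + W₁.a₃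
  let c : Qbar := (x : Qbar) ^ 3 + W₁.a₂ * x ^ 2 + W₁.a₄ * x + W₁.a₆
  obtain ⟨y, hy⟩ := IsAlgClosed.exists_root
    (Polynomial.X ^ 2 + Polynomial.C a * Polynomial.X + Polynomial.C (-c)) (by
      rw [← one_mul (Polynomial.X ^ 2), ← Polynomial.C_1, Polynomial.degree_quadratic one_ne_zero]
      exact two_ne_zero)
  simp only [Polynomial.IsRoot, Polynomial.eval_add, Polynomial.eval_pow, Polynomial.eval_X,
    Polynomial.eval_mul, Polynomial.eval_C] at hy
  have heq : (E).toAffine.Equation (x : Qbar) y := by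
    rw [Affine.equation_iff]
    show y ^ 2 + (W₁.a₁ : Qbar) * x * y + W₁.a₃ * y =
      (x : Qbar) ^ 3 + W₁.a₂ * x ^ 2 + W₁.a₄ * x + W₁.a₆
    linear_combination hy
  have hy' : y ∈ A := (val_le_iff A).1 (val_le_of_monic_quadratic (ECTorsion.Red.intAt (W₁ := W₁))
    ((val_le_iff A).2 x.2) ((Affine.equation_iff ..).1 heq))
  have hns : (E).toAffine.Nonsingular (x : Qbar) ((⟨y, hy'⟩ : A) : Qbar) :=
    Affine.equation_iff_nonsingular.1 heq
  set R : (E).toAffine.Point := .some _ _ hns
  obtain ⟨h', hR⟩ := red_some W₁ hns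
  have hnR : red W₁ (-R) = -red W₁ R := red_neg_some W₁ hns
  simp only [Set.mem_union, Set.mem_insert_iff, Set.mem_singleton_iff, not_or] at hxb
  obtain ⟨⟨hxP, hxQ⟩, hxD⟩ := hxb
  have h1 : red W₁ P ≠ red W₁ R := fun h => hxP (by rw [h, hR])
  have h2' : red W₁ Q ≠ red W₁ (-R) := fun h => hxQ (by rw [h, hnR, hR, Affine.Point.neg_some])
  refine ⟨R, h1, h2', fun h => hxD ⟨red W₁ R, ?_, by rw [hR]⟩⟩
  rw [(addXYZ_of_red_ne W₁ h1).1, (addXYZ_of_red_ne W₁ h2').1, hnR] at h
  show red W₁ R + red W₁ R = red W₁ Q - red W₁ P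
  rw [eq_sub_iff_add_eq, add_assoc, add_comm (red W₁ R) (red W₁ P), h]
  abel

variable {ℓ : ℕ} [Fact ℓ.Prime] {M : Type} [AddCommGroup M] [Finite M]
  {act : GalQ →* AddMonoid.End M}

/-- A finite Galois module of points of a curve with good reduction has a finite flat model. -/
theorem hasFlatModel_of_points (hA : A.LiesOverPrime ℓ)
    (h2 : (2 : IsLocalRing.ResidueField A) ≠ 0) (hcont : GaloisFactorsThroughFiniteLevel act)
    (ι : M →+ (E).toAffine.Point) (hinj : Function.Injective ι)
    (hact : ∀ τ ∈ A.inertiaSubgroupIn ℚ, ∀ x i,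
      (rep W₁ (ι (act τ x)) i : Qbar) = τ (rep W₁ (ι x) i : Qbar)) :
    HasFlatModel ℓ act := by
  classical
  obtain ⟨ζ, hζ, hH⟩ := exists_generic (infinite_residue_goodRoots hA)
    (fun x : M => rep W₁ (ι x)) fun x => exists_isUnit_rep W₁ _
  let c : M → A := fun x => ((hH x).unit⁻¹ : Aˣ)
  let φ : Fin 3 → M → Qbar := fun i x => ((c x * rep W₁ (ι x) i : A) : Qbar)
  have hc : ∀ x, c x * ∑ i, rep W₁ (ι x) i * ζ ^ (i : ℕ) = 1 := fun x => (hH x).val_inv_mul
  have hζfix : ∀ τ ∈ A.inertiaSubgroupIn ℚ, τ (ζ : Qbar) = ζ :=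
    fun τ hτ => inertia_fixes_goodRoots hA hτ hζ
  refine hasFlatModel_of_coordinates Fact.out hA hcont φ (fun i x => (c x * _).2) ?_ ?_ fun i => ?_
  · intro i τ hτ x
    have e : τ (c x : Qbar) = (c (act τ x) : Qbar) := by
      have h1 := congrArg (fun a : A => τ (a : Qbar)) (hc x)
      have h2 := congrArg (fun a : A => (a : Qbar)) (hc (act τ x))
      simp only [MulMemClass.coe_mul, AddSubmonoidClass.coe_finsetSum, SubmonoidClass.coe_pow,
        OneMemClass.coe_one, map_mul, map_sum, map_pow, hζfix τ hτ, _root_.map_one] at h1 h2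
      simp only [hact τ hτ] at h2
      exact mul_right_cancel₀ (fun h0 => by rw [h0, mul_zero] at h1; exact zero_ne_one h1)
        (h1.trans h2.symm)
    show ((c (act τ x) * rep W₁ (ι (act τ x)) i : A) : Qbar) = τ ((c x * rep W₁ (ι x) i : A) : Qbar)
    rw [MulMemClass.coe_mul, MulMemClass.coe_mul, map_mul, e, hact τ hτ]
  · intro x y h
    refine hinj ?_
    have hu : ∀ z : M, IsUnit ((c z : A) : Qbar) := fun z => by
      refine Ne.isUnit fun h0 => ?_
      have h1 := congrArg (fun a : A => (a : Qbar)) (hc z)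
      simp only [MulMemClass.coe_mul, h0, zero_mul, OneMemClass.coe_one] at h1
      exact zero_ne_one h1
    have hxy : ((c x : A) : Qbar) • (A.subtype ∘ rep W₁ (ι x)) =
        ((c y : A) : Qbar) • (A.subtype ∘ rep W₁ (ι y)) := funext fun i => h i
    rw [← (subtype_rep W₁ (ι x)).2, ← (subtype_rep W₁ (ι y)).2,
      ← Projective.Point.toAffine_smul _ (hu x), hxy, Projective.Point.toAffine_smul _ (hu y)]
  set B : Subalgebra A (M × M → Qbar) := Algebra.adjoin A
    (Set.range (fun j => fun p : M × M => φ j p.1) ∪ Set.range (fun j => fun p : M × M => φ j p.2))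
  have hval : ∀ g ∈ B, ∀ p, g p ∈ A := by
    intro g hg p
    induction hg using Algebra.adjoin_induction with
    | mem g hg => rcases hg with ⟨j, rfl⟩ | ⟨j, rfl⟩ <;> exact (c _ * _).2
    | algebraMap a => exact a.2
    | add a b _ _ ha hb => exact add_mem ha hb
    | mul a b _ _ ha hb => exact mul_mem ha hb
  set g : M × M → Qbar := fun p => φ i (p.1 + p.2) with hg
  -- locally a multiple is regular
  have hloc : ∀ p₀ : M × M, ∃ b ∈ B, b * g ∈ B ∧ A.valuation (b p₀) = 1 := by
    intro p₀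
    obtain ⟨R, r1, r2, r3⟩ := exists_aux_point W₁ h2 (ι p₀.1) (ι p₀.2)
    let G₁ : Fin 3 → B := fun j => ⟨fun p => φ j p.1, Algebra.subset_adjoin (Or.inl ⟨j, rfl⟩)⟩
    let G₂ : Fin 3 → B := fun j => ⟨fun p => φ j p.2, Algebra.subset_adjoin (Or.inr ⟨j, rfl⟩)⟩
    let cst : (E).toAffine.Point → Fin 3 → B := fun S j => algebraMap A B (rep W₁ S j)
    let Wb := (W₁.map (algebraMap A B)).toProjective
    let T : Fin 3 → B := Wb.addXYZ (Wb.addXYZ G₁ (cst R)) (Wb.addXYZ G₂ (cst (-R)))
    let ev : M × M → B →+* Qbar := fun p => (Pi.evalRingHom (fun _ => Qbar) p).comp B.val.toRingHom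
    have hev : ∀ p, (W₁.map (algebraMap A B)).map (ev p) = E := fun p => by
      rw [WeierstrassCurve.map_map]; rfl
    have hmap : ∀ p (U V : Fin 3 → B), ev p ∘ Wb.addXYZ U V =
        (E).toProjective.addXYZ (ev p ∘ U) (ev p ∘ V) := fun p U V =>
      (Projective.map_addXYZ (W' := Wb) (f := ev p) U V).symm.trans
        (congrArg (fun V' : WeierstrassCurve Qbar => V'.toProjective.addXYZ (ev p ∘ U) (ev p ∘ V))
          (hev p))
    have key : ∀ p : M × M, ∃ lam : Qbar, (ev p ∘ T = lam • (A.subtype ∘ rep W₁ (ι (p.1 + p.2)))) ∧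
        (p = p₀ → A.valuation lam = 1) := by
      intro p
      obtain ⟨l₁, e₁⟩ := exists_addXYZ W₁ (ι p.1) R
      obtain ⟨l₂, e₂⟩ := exists_addXYZ W₁ (ι p.2) (-R)
      obtain ⟨l₃, e₃⟩ := exists_addXYZ W₁ (ι p.1 + R) (ι p.2 + -R)
      refine ⟨(((c p.1 : A) : Qbar) ^ 2 * l₁ * (((c p.2 : A) : Qbar) ^ 2 * l₂)) ^ 2 * l₃, ?_, ?_⟩
      · have f₁ : ev p ∘ G₁ = ((c p.1 : A) : Qbar) • (A.subtype ∘ rep W₁ (ι p.1)) := rfl
        have f₂ : ev p ∘ G₂ = ((c p.2 : A) : Qbar) • (A.subtype ∘ rep W₁ (ι p.2)) := rfl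
        have f₀ : ∀ S, ev p ∘ cst S = (1 : Qbar) • (A.subtype ∘ rep W₁ S) := fun S => by
          rw [one_smul]; rfl
        rw [hmap, hmap, hmap, f₁, f₂, f₀, f₀, Projective.addXYZ_smul, Projective.addXYZ_smul,
          mul_one, mul_one, e₁, e₂, smul_smul, smul_smul, Projective.addXYZ_smul, e₃, smul_smul,
          show ι p.1 + R + (ι p.2 + -R) = ι (p.1 + p.2) by rw [map_add]; abel]
      · rintro rfl
        have hu : ∀ z, A.valuation ((c z : A) : Qbar) = 1 := fun z =>
          (A.valuation_eq_one_iff _).mp (Units.isUnit _)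
        rw [map_mul, map_pow, map_mul, map_mul, map_mul, map_pow, map_pow, hu, hu,
          (addXYZ_of_red_ne W₁ r1).2 l₁ e₁, (addXYZ_of_red_ne W₁ r2).2 l₂ e₂,
          (addXYZ_of_red_ne W₁ r3).2 l₃ e₃]
        simp
    refine ⟨((∑ j, T j * algebraMap A B (ζ ^ (j : ℕ)) : B) : M × M → Qbar), SetLike.coe_mem _,
      ?_, ?_⟩
    · convert (T i).2 using 1
      funext p
      obtain ⟨lam, hl, -⟩ := key p
      have hT : ∀ j, (T j : M × M → Qbar) p = lam * (rep W₁ (ι (p.1 + p.2)) j : Qbar) :=
        congrFun hl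
      have hsum : ((∑ j, T j * algebraMap A B (ζ ^ (j : ℕ)) : B) : M × M → Qbar) p =
          lam * ((∑ j, rep W₁ (ι (p.1 + p.2)) j * ζ ^ (j : ℕ) : A) : Qbar) := by
        rw [show ((∑ j, T j * algebraMap A B (ζ ^ (j : ℕ)) : B) : M × M → Qbar) p =
          ev p (∑ j, T j * algebraMap A B (ζ ^ (j : ℕ))) from rfl, map_sum,
          AddSubmonoidClass.coe_finsetSum, Finset.mul_sum]
        refine Finset.sum_congr rfl fun j _ => ?_
        rw [map_mul, MulMemClass.coe_mul, ← mul_assoc, ← hT j]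
        rfl
      show _ * ((c (p.1 + p.2) * rep W₁ (ι (p.1 + p.2)) i : A) : Qbar) = _
      rw [hsum, hT i, mul_assoc, ← MulMemClass.coe_mul, ← mul_assoc (∑ j, _),
        mul_comm (∑ j, _) (c _), hc, one_mul]
    · obtain ⟨lam, hl, hv⟩ := key p₀
      have hT : ∀ j, (T j : M × M → Qbar) p₀ = lam * (rep W₁ (ι (p₀.1 + p₀.2)) j : Qbar) :=
        congrFun hl
      rw [show ((∑ j, T j * algebraMap A B (ζ ^ (j : ℕ)) : B) : M × M → Qbar) p₀ =
          lam * ((∑ j, rep W₁ (ι (p₀.1 + p₀.2)) j * ζ ^ (j : ℕ) : A) : Qbar) by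
        rw [show ((∑ j, T j * algebraMap A B (ζ ^ (j : ℕ)) : B) : M × M → Qbar) p₀ =
          ev p₀ (∑ j, T j * algebraMap A B (ζ ^ (j : ℕ))) from rfl, map_sum,
          AddSubmonoidClass.coe_finsetSum, Finset.mul_sum]
        refine Finset.sum_congr rfl fun j _ => ?_
        rw [map_mul, MulMemClass.coe_mul, ← mul_assoc, ← hT j]
        rfl, map_mul, hv rfl, one_mul]
      exact (A.valuation_eq_one_iff _).mp (hH _)
  choose b hbB hbg hb1 using hloc
  have := Fintype.ofFinite (M × M)
  let e := Fintype.equivFin (M × M)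
  obtain ⟨η, -, hη⟩ := exists_generic (S := (Set.univ : Set A)) (by
      exact (infinite_residue_goodRoots hA).mono (Set.image_mono (Set.subset_univ _)))
    (fun (p : M × M) (j : Fin (Fintype.card (M × M))) => (⟨b (e.symm j) p, hval _ (hbB _) p⟩ : A))
    fun p => ⟨e p, (A.valuation_eq_one_iff _).mpr (by
      show A.valuation (b (e.symm (e p)) p) = 1
      rw [Equiv.symm_apply_apply]; exact hb1 p)⟩
  let u : B := ∑ j : Fin (Fintype.card (M × M)),
      (⟨b (e.symm j), hbB _⟩ : B) * algebraMap A B (η ^ (j : ℕ))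
  have hug : (u : M × M → Qbar) * g ∈ B := by
    rw [AddSubmonoidClass.coe_finsetSum, Finset.sum_mul]
    refine B.sum_mem fun j _ => ?_
    rw [MulMemClass.coe_mul, mul_right_comm]
    exact mul_mem (hbg _) (SetLike.coe_mem _)
  let uv : M × M → A := fun p =>
    ∑ j : Fin (Fintype.card (M × M)), (⟨b (e.symm j) p, hval _ (hbB _) p⟩ : A) * η ^ (j : ℕ)
  have hup : ∀ p, (u : M × M → Qbar) p = (uv p : Qbar) := fun p => by
    simp only [u, uv, AddSubmonoidClass.coe_finsetSum, Finset.sum_apply]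
    exact Finset.sum_congr rfl fun j _ => rfl
  -- `u` is invertible in `B`
  let P : Polynomial A := ∏ p, (Polynomial.X - Polynomial.C (uv p))
  have hP0 : Polynomial.aeval u P = 0 := by
    apply Subtype.ext
    funext p
    rw [map_prod, SubmonoidClass.coe_finsetProd, Finset.prod_apply]
    refine Finset.prod_eq_zero (Finset.mem_univ p) ?_
    simp [hup]
  have hunit : IsUnit (P.coeff 0) := by
    rw [Polynomial.coeff_zero_eq_eval_zero, Polynomial.eval_prod, IsUnit.prod_iff]
    intro p _
    simp only [Polynomial.eval_sub, Polynomial.eval_X, Polynomial.eval_C, zero_sub, IsUnit.neg_iff]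
    exact hη p
  have hinv : ∃ w : B, u * w = 1 := by
    refine ⟨-(Polynomial.aeval u P.divX * algebraMap A B (hunit.unit⁻¹ : Aˣ)), ?_⟩
    have h := hP0
    rw [← Polynomial.X_mul_divX_add P, map_add, map_mul, Polynomial.aeval_X,
      Polynomial.aeval_C] at h
    have hq : algebraMap A B (P.coeff 0) * algebraMap A B (hunit.unit⁻¹ : Aˣ) = 1 := by
      rw [← map_mul, IsUnit.mul_val_inv, _root_.map_one]
    linear_combination -(algebraMap A B (hunit.unit⁻¹ : Aˣ)) * h + hq
  obtain ⟨w, hw⟩ := hinv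
  have : g = (w : M × M → Qbar) * ((u : M × M → Qbar) * g) := by
    rw [← mul_assoc, mul_comm (w : M × M → Qbar), ← MulMemClass.coe_mul, hw, OneMemClass.coe_one,
      one_mul]
  rw [this]
  exact mul_mem w.2 hug

end FLTAgent.TateLocal
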