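import Fermat.Agent.TateLocal.NodeDecomp
import Fermat.Agent.ConductorMatch.InertiaTorsion
import Fermat.Agent.LocalThree.TameValues

/-!
# Torsion at a place of multiplicative reduction

Torsion of an integral Weierstrass curve over `ℚ̄` at a place of multiplicative reduction: the
action of inertia and Frobenius through the sign of the node and the multiplicative parameter.
-/

set_option autoImplicit false

noncomputable section

open WeierstrassCurve WeierstrassCurve.Affine WeierstrassCurve.Affine.Point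
open scoped WeierstrassCurve.Affine

namespace FLTAgent.TateLocal

open FLTAgent.Density FLTAgent.ECReduction FLTAgent.ConductorMatch FLTAgent.LocalThree

variable {W : WeierstrassCurve ℤ} {A : ValuationSubring Qbar} {q : ℕ}

local notation "v" => A.valuation

theorem valPres (hq : q.Prime) (hA : A.LiesOverPrime q) {σ : GalQ}
    (hσ : σ ∈ A.decompositionSubgroup ℚ) : ValPres A σ := fun x => val_apply hq hA hσ x

theorem exists_node (hq : q.Prime) (hA : A.LiesOverPrime q) (hdvd : (q : ℤ) ∣ W.Δ)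
    (hc4 : ¬ (q : ℤ) ∣ W.c₄) : Nonempty (NodeData A ((EQ W)⁄Qbar : WeierstrassCurve Qbar)) := by
  have : Fact q.Prime := ⟨hq⟩
  refine nonempty_nodeData two_ne_zero three_ne_zero intAt ?_ ?_
  · rw [baseChange_eq, WeierstrassCurve.map_Δ, eq_intCast]
    obtain ⟨d, hd⟩ := hdvd
    rw [hd]
    push_cast
    exact val_mul_lt_left A (A.mem_nonunits_iff.1 hA) (val_intCast_le A d)
  · rw [baseChange_eq, WeierstrassCurve.map_c₄, eq_intCast]
    exact (A.valuation_eq_one_iff _).mp (FLTAgent.Deuring.isUnit_intCast_of_not_dvd hA hc4)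

theorem val_frobenius_sub {σ : GalQ} (hσ : A.IsFrobeniusAt σ q) {x : Qbar} (hx : v x ≤ 1) :
    v (σ x - x ^ q) < 1 :=
  A.mem_nonunits_iff.1 ((isFrobeniusAt_iff.1 hσ).2 x ((A.valuation_le_one_iff x).1 hx))

theorem smul_nsmul (σ : GalQ) (n : ℕ) (P : Pt W) : σ • (n • P) = n • (σ • P) :=
  map_nsmul (DistribSMul.toAddMonoidHom (Pt W) σ) n P

theorem nsmul_smul_eq_zero (σ : GalQ) {n : ℕ} {P : Pt W} (hP : n • P = 0) : n • (σ • P) = 0 := by
  rw [← smul_nsmul, hP]
  exact _root_.map_zero (DistribSMul.toAddMonoidHom (Pt W) σ)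

/-- Torsion of order invertible at `A` reducing to the point at infinity is trivial. -/
theorem eq_zero_of_inE1 {n : ℕ} (hn : v (n : Qbar) = 1) {P : Pt W} (hP : n • P = 0)
    (h1 : InE1 A ((EQ W)⁄Qbar : WeierstrassCurve Qbar) P) : P = 0 := by
  rcases P with _ | ⟨x, y, h⟩
  · rfl
  · exact absurd (val_x_le hn hP) (not_le.2 h1)

theorem ares_pow {x : Qbar} (hx : x ∈ A) (n : ℕ) : ares A (x ^ n) = ares A x ^ n := by
  induction n with
  | zero => rw [pow_zero, pow_zero, ares_one]
  | succ m ih => rw [pow_succ, ares_mul (pow_mem hx m) hx, ih, pow_succ]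

variable (nd : NodeData A ((EQ W)⁄Qbar : WeierstrassCurve Qbar))

theorem sgn_eq_one_of_inertia {σ : GalQ} (hq : q.Prime) (hA : A.LiesOverPrime q)
    (hσ : σ ∈ A.inertiaSubgroupIn ℚ) : sgn nd σ = 1 := by
  refine sgn_of_fix nd ((map_slope_cases nd (valPres hq hA (mem_inertiaSubgroupIn_iff.1 hσ).1)
    (fixesCoeffs σ)).resolve_right fun h => ?_)
  have hlt := (ECReduction.inertiaElt_of_mem hσ).sub_lt _ nd.hs
  rw [h, show -((EQ W)⁄Qbar : WeierstrassCurve Qbar).a₁ - nd.s - nd.s = -nd.u by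
    rw [NodeData.u]; ring, A.valuation.map_neg, nd.val_u] at hlt
  exact lt_irrefl _ hlt

theorem sgn_eq_of_frobenius (hq : q.Prime) (hA : A.LiesOverPrime q) {σ τ : GalQ}
    (hσ : A.IsFrobeniusAt σ q) (hτ : A.IsFrobeniusAt τ q) : sgn nd σ = sgn nd τ := by
  have hcases := fun (g : GalQ) (hg : A.IsFrobeniusAt g q) =>
    map_slope_cases nd (valPres hq hA hg.mem_decompositionSubgroup) (fixesCoeffs g)
  have hlt : v (σ nd.s - τ nd.s) < 1 := by
    rw [show σ nd.s - τ nd.s = (σ nd.s - nd.s ^ q) - (τ nd.s - nd.s ^ q) by ring]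
    exact val_sub_lt A (val_frobenius_sub hσ nd.hs) (val_frobenius_sub hτ nd.hs)
  have heq : σ nd.s = τ nd.s := by
    rcases hcases σ hσ with h | h <;> rcases hcases τ hτ with h' | h'
    · rw [h, h']
    · rw [h, h', show nd.s - (-((EQ W)⁄Qbar : WeierstrassCurve Qbar).a₁ - nd.s) = nd.u by
        rw [NodeData.u]; ring, nd.val_u] at hlt
      exact absurd hlt (lt_irrefl _)
    · rw [h, h', show -((EQ W)⁄Qbar : WeierstrassCurve Qbar).a₁ - nd.s - nd.s = -nd.u by
        rw [NodeData.u]; ring, A.valuation.map_neg, nd.val_u] at hlt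
      exact absurd hlt (lt_irrefl _)
    · rw [h, h']
  simp only [sgn, heq]

/-- A Frobenius element acts on `E₀[n]` by `sgn * q`. -/
theorem frobenius_smul_of_inE0 (hq : q.Prime) (hA : A.LiesOverPrime q) {φ : GalQ}
    (hφ : A.IsFrobeniusAt φ q) {n : ℕ} (hn : v (n : Qbar) = 1) {P : Pt W} (hP : n • P = 0)
    (hE : InE0 A ((EQ W)⁄Qbar : WeierstrassCurve Qbar) P) :
    φ • P = (sgn nd φ * (q : ℤ)) • P := by
  have hW : IntAt A ((EQ W)⁄Qbar : WeierstrassCurve Qbar) := ConductorMatch.intAt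
  have hσ := valPres hq hA hφ.mem_decompositionSubgroup
  have hm : InE0 A ((EQ W)⁄Qbar : WeierstrassCurve Qbar) ((sgn nd φ * (q : ℤ)) • P) :=
    mem_E0.1 (zsmul_mem (mem_E0 (hW := hW).2 hE) _)
  have hφE : InE0 A ((EQ W)⁄Qbar : WeierstrassCurve Qbar) (φ • P) := inE0_smul_of_valPres hσ hE
  have hr := val_ratio nd hW hE
  have hr1 := val_ratio nd hW hφE
  have hr2 := val_ratio nd hW hm
  have hφr : v (ratio nd (φ • P) - ratio nd P ^ (sgn nd φ * (q : ℤ))) < 1 := by
    rw [ratio_smul nd hσ P, mul_comm, zpow_mul, zpow_natCast]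
    have h0 := val_frobenius_sub hφ hr.le
    rcases sgn_cases nd φ with h | h <;> rw [h]
    · rw [zpow_one, zpow_one]; exact h0
    · rw [zpow_neg, zpow_neg, zpow_one, zpow_one]
      exact val_congr_inv (by rw [hσ, hr]) (by rw [map_pow, hr, one_pow]) h0
  have hmr : v (ratio nd (φ • P) - ratio nd ((sgn nd φ * (q : ℤ)) • P)) < 1 :=
    val_congr_trans hφr (by rw [A.valuation.map_sub_swap]; exact val_ratio_zsmul nd hW hE _)
  refine sub_eq_zero.1 (eq_zero_of_inE1 hn ?_ (inE1_of_ratio nd hW (hφE.sub hW hm) ?_))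
  · rw [nsmul_sub, nsmul_smul_eq_zero φ hP, smul_comm, hP, zsmul_zero, sub_zero]
  · refine val_congr_trans (b := ratio nd (φ • P) * ratio nd (-((sgn nd φ * (q : ℤ)) • P))) ?_ ?_
    · rw [sub_eq_add_neg (φ • P)]; exact val_ratio_add nd hW hφE (hm.neg hW)
    · rw [ratio_neg, mul_comm, ← div_eq_inv_mul, div_sub_one (ne_zero_of_val_eq_one A hr2),
        map_div₀, hr2, div_one]
      exact hmr

theorem ratio_pow_sub_one {n : ℕ} {P : Pt W} (hP : n • P = 0)
    (hE : InE0 A ((EQ W)⁄Qbar : WeierstrassCurve Qbar) P) : v (ratio nd P ^ n - 1) < 1 := by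
  have h := val_ratio_nsmul nd ConductorMatch.intAt hE n
  rw [hP, A.valuation.map_sub_swap] at h
  exact h

include nd in
/-- `E₀[n]` has at most `n` elements. -/
theorem card_le_of_inE0 {n : ℕ} (hn0 : n ≠ 0) (hn : v (n : Qbar) = 1) (s : Finset (Pt W))
    (hs : ∀ P ∈ s, n • P = 0 ∧ InE0 A ((EQ W)⁄Qbar : WeierstrassCurve Qbar) P) : s.card ≤ n := by
  classical
  have hW : IntAt A ((EQ W)⁄Qbar : WeierstrassCurve Qbar) := ConductorMatch.intAt
  have hinj : Set.InjOn (fun P : Pt W => ares A (ratio nd P)) s := by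
    intro P hP Q hQ h
    obtain ⟨hP0, hPE⟩ := hs P hP
    obtain ⟨hQ0, hQE⟩ := hs Q hQ
    have hrP := val_ratio nd hW hPE
    have hrQ := val_ratio nd hW hQE
    have hPQ : v (ratio nd P - ratio nd Q) < 1 := by
      have hm : ratio nd P - ratio nd Q ∈ A :=
        (A.valuation_le_one_iff _).1 (val_sub_le A hrP.le hrQ.le)
      refine (ares_eq_zero_iff hm).1 ?_
      have e := ares_add hm (mem_of_val_eq_one hrQ)
      rw [sub_add_cancel, show ares A (ratio nd P) = ares A (ratio nd Q) from h] at e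
      exact right_eq_add.1 e
    refine sub_eq_zero.1 (eq_zero_of_inE1 hn (by rw [nsmul_sub, hP0, hQ0, sub_zero])
      (inE1_of_ratio nd hW (hPE.sub hW hQE) ?_))
    refine val_congr_trans (b := ratio nd P * ratio nd (-Q)) ?_ ?_
    · rw [sub_eq_add_neg P]; exact val_ratio_add nd hW hPE (hQE.neg hW)
    · rw [ratio_neg, mul_comm, ← div_eq_inv_mul, div_sub_one (ne_zero_of_val_eq_one A hrQ),
        map_div₀, hrQ, div_one]
      exact hPQ
  have hsub : s.image (fun P : Pt W => ares A (ratio nd P)) ⊆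
      (Polynomial.nthRoots n (1 : IsLocalRing.ResidueField A)).toFinset := by
    intro z hz
    obtain ⟨P, hP, rfl⟩ := Finset.mem_image.1 hz
    obtain ⟨hP0, hPE⟩ := hs P hP
    rw [Multiset.mem_toFinset, Polynomial.mem_nthRoots (Nat.pos_of_ne_zero hn0)]
    have hr := mem_of_val_eq_one (val_ratio nd hW hPE)
    have e : ares A (ratio nd P ^ n) = ares A (ratio nd P) ^ n := ares_pow hr n
    rw [← e, ← ares_one]
    exact ares_eq_of_sub (pow_mem hr _) A.one_mem (ratio_pow_sub_one nd hP0 hPE)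
  rw [← Finset.card_image_of_injOn hinj]
  exact (Finset.card_le_card hsub).trans
    ((Multiset.toFinset_card_le _).trans (Polynomial.card_nthRoots _ _))

include nd in
/-- In residue characteristic `p` the `p`-power torsion of `E₀` lies in `E₁`. -/
theorem inE1_of_inE0 (hq : q.Prime) (hA : A.LiesOverPrime q) {k : ℕ} {P : Pt W}
    (hP : q ^ k • P = 0) (hE : InE0 A ((EQ W)⁄Qbar : WeierstrassCurve Qbar) P) :
    InE1 A ((EQ W)⁄Qbar : WeierstrassCurve Qbar) P := by
  have : Fact q.Prime := ⟨hq⟩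
  have hW : IntAt A ((EQ W)⁄Qbar : WeierstrassCurve Qbar) := ConductorMatch.intAt
  have : CharP (IsLocalRing.ResidueField A) q := (CharP.charP_iff_prime_eq_zero hq).2 (by
    rw [← ares_natCast (A := A), ares_eq_zero_iff (natCast_mem A q)]
    exact A.mem_nonunits_iff.1 hA)
  refine inE1_of_ratio nd hW hE ?_
  have hr := mem_of_val_eq_one (val_ratio nd hW hE)
  have hd : ratio nd P - 1 ∈ A := sub_mem hr A.one_mem
  rw [← ares_eq_zero_iff hd]
  have h1 := ratio_pow_sub_one nd hP hE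
  let r : A := ⟨ratio nd P, hr⟩
  have h0 : IsLocalRing.residue A (r ^ q ^ k - 1) = 0 := by
    rw [IsLocalRing.residue_eq_zero_iff, ← ValuationSubring.coe_mem_nonunits_iff,
      A.mem_nonunits_iff]
    exact h1
  rw [map_sub, map_pow, _root_.map_one, ← one_pow (q ^ k), ← sub_pow_char_pow,
    pow_eq_zero_iff (pow_ne_zero _ hq.ne_zero)] at h0
  rw [ares_of_mem hd, ← h0, ← _root_.map_one (IsLocalRing.residue A), ← map_sub]
  rfl

end FLTAgent.TateLocal
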