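import Fermat.Agent.TateLocal.Local
import Fermat.Agent.ConductorMatch.TateMatrix

/-!
# The Tate module at a multiplicative prime other than `p`

At a prime `q ≠ p` of multiplicative reduction Frobenius has trace `± (q + 1)` and inertia acts
nontrivially (`exists_sign_trace`, `exists_tateRep_ne_one`).
-/

set_option autoImplicit false

noncomputable section

open WeierstrassCurve WeierstrassCurve.Affine WeierstrassCurve.Affine.Point
open scoped WeierstrassCurve.Affine Pointwise

namespace FLTAgent.TateLocal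

open FLTAgent.Density FLTAgent.ECTorsion FLTAgent.ECReduction FLTAgent.ConductorMatch
    FLTAgent.LocalThree

variable {W : WeierstrassCurve ℤ} {A : ValuationSubring Qbar} {q : ℕ}

theorem mul_self_eq_fin_two {R : Type*} [CommRing R] (M : Matrix (Fin 2) (Fin 2) R) :
    M * M - M.trace • M + M.det • (1 : Matrix (Fin 2) (Fin 2) R) = 0 := by
  ext i j
  fin_cases i <;> fin_cases j <;>
    simp [Matrix.mul_apply, Fin.sum_univ_two, Matrix.trace_fin_two, Matrix.det_fin_two] <;> ring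

variable (nd : NodeData A ((EQ W)⁄Qbar : WeierstrassCurve Qbar))

/-- Cayley-Hamilton on the points: `φ² - ε (1 + q) φ + q = 0`. -/
theorem frobenius_quadratic (hq : q.Prime) (hA : A.LiesOverPrime q) {φ : GalQ}
    (hφ : A.IsFrobeniusAt φ q) {n : ℕ} (hodd : Odd n) (hn : A.valuation (n : Qbar) = 1)
    {P : Pt W} (hP : n • P = 0) :
    φ • (φ • P) - (sgn nd φ * (1 + (q : ℤ))) • (φ • P) + (q : ℤ) • P = 0 := by
  set ε := sgn nd φ with hε
  have hεε : ε * ε = 1 := by rcases sgn_cases nd φ with h | h <;> rw [hε, h] <;> rfl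
  have hw0 : n • (φ • P - ε • P) = 0 := by
    rw [nsmul_sub, nsmul_smul_eq_zero φ hP, smul_comm, hP, zsmul_zero, sub_zero]
  have h := frobenius_smul_of_inE0 nd hq hA hφ hn hw0
    (smul_sub_sgn_inE0 nd ConductorMatch.intAt (valPres hq hA hφ.mem_decompositionSubgroup) hodd hP)
  have hc : φ • (ε • P) = ε • (φ • P) :=
    map_zsmul (DistribSMul.toAddMonoidHom (Pt W) φ) ε P
  rw [← hε, smul_sub, zsmul_sub, hc, ← mul_zsmul,
    show ε * (q : ℤ) * ε = (q : ℤ) by rw [mul_right_comm, hεε, one_mul]] at h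
  rw [mul_add, mul_one, add_zsmul]
  rw [sub_eq_iff_eq_add] at h
  rw [h]
  abel

variable {p : ℕ} [Fact p.Prime]

/-- The trace of a Frobenius element. -/
theorem trace_tateRep_frobenius_of_node (hp2 : p ≠ 2) (hΔ : W.Δ ≠ 0) (hq : q.Prime)
    (hA : A.LiesOverPrime q) (hqp : q ≠ p) {φ : GalQ} (hφ : A.IsFrobeniusAt φ q) :
    (tateRep p W hΔ φ).trace = (sgn nd φ : ℤ_[p]) * ((q : ℤ_[p]) + 1) := by
  have hp : p.Prime := Fact.out
  refine PadicInt.ext_of_toZModPow.mp fun k => ?_
  have hn : A.valuation ((p ^ k : ℕ) : Qbar) = 1 := val_natCast_eq_one hq hA fun h =>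
    hqp ((Nat.prime_dvd_prime_iff_eq hq hp).mp (hq.dvd_of_dvd_pow h))
  set f := galoisRepModuleEnd ℚ (EQ W) (p ^ k) φ with hf
  set c : ℤ := sgn nd φ * (1 + (q : ℤ)) with hc
  have hlin : f * f - (c : ZMod (p ^ k)) • f + ((q : ℤ) : ZMod (p ^ k)) • 1 = 0 := by
    refine LinearMap.ext fun z => Subtype.ext ?_
    rw [LinearMap.add_apply, LinearMap.sub_apply, LinearMap.smul_apply, LinearMap.smul_apply,
      Module.End.mul_apply, Module.End.one_apply, LinearMap.zero_apply, hf,
      galoisRepModuleEnd_apply, galoisRepModuleEnd_apply, Int.cast_smul_eq_zsmul,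
      Int.cast_smul_eq_zsmul]
    push_cast [ConductorMatch.coe_smul]
    exact frobenius_quadratic nd hq hA hφ ((hp.odd_of_ne_two hp2).pow) hn
        (ConductorMatch.nsmul_coe z)
  set b := tateBasis p W hΔ k
  have hmat := congrArg (LinearMap.toMatrixAlgEquiv b) hlin
  rw [map_add, map_sub, map_mul, map_smul, map_smul, _root_.map_one, _root_.map_zero] at hmat
  set M := levelRep p W hΔ k φ with hM
  have hMb : LinearMap.toMatrixAlgEquiv b f = M := rfl
  rw [hMb] at hmat
  have hMr : (tateRep p W hΔ φ).map (PadicInt.toZModPow k) = M := map_tateRep W hΔ k φ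
  have hdet : M.det = ((q : ℤ) : ZMod (p ^ k)) := by
    rw [← hMr, ← RingHom.mapMatrix_apply, ← RingHom.map_det, det_tateRep,
      FLTAgent.GaloisAttach.cyc_frobenius p hq hqp hA hφ, map_natCast, Int.cast_natCast]
  have hch := mul_self_eq_fin_two M
  rw [hdet] at hch
  have hd : (M.trace - (c : ZMod (p ^ k))) • M = 0 := by
    rw [sub_smul]
    linear_combination (norm := abel) hmat - hch
  have h2 : (M.trace - (c : ZMod (p ^ k))) • (M * M) = 0 := by
    rw [← Matrix.smul_mul, hd, zero_mul]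
  have hq0 : (M.trace - (c : ZMod (p ^ k))) * ((q : ℤ) : ZMod (p ^ k)) = 0 := by
    have h3 : (M.trace - (c : ZMod (p ^ k))) • (M * M - M.trace • M +
        ((q : ℤ) : ZMod (p ^ k)) • (1 : Matrix (Fin 2) (Fin 2) (ZMod (p ^ k)))) = 0 := by
      rw [hch, smul_zero]
    rw [smul_add, smul_sub, h2, smul_comm _ M.trace M, hd, smul_zero, sub_zero, zero_add,
      smul_smul] at h3
    have h4 := congrFun (congrFun h3 0) 0
    simpa using h4
  have hu : IsUnit ((q : ℤ) : ZMod (p ^ k)) := by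
    rw [Int.cast_natCast, ZMod.isUnit_iff_coprime]
    exact Nat.Coprime.pow_right k ((Nat.coprime_primes hq hp).2 hqp)
  have htr : M.trace = (c : ZMod (p ^ k)) :=
    sub_eq_zero.1 ((IsUnit.mul_left_eq_zero hu).1 hq0)
  rw [show PadicInt.toZModPow k (tateRep p W hΔ φ).trace = M.trace by
    rw [← hMr, Matrix.trace, map_sum]; rfl, htr, hc, map_mul, map_add, map_intCast, map_natCast,
    _root_.map_one]
  push_cast
  ring

/-- Steinberg at every place over `q`, with a single sign. -/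
theorem exists_sign_trace (hp2 : p ≠ 2) (hΔ : W.Δ ≠ 0) (hq : q.Prime) (hqp : q ≠ p)
    (hdvd : (q : ℤ) ∣ W.Δ) (hc4 : ¬ (q : ℤ) ∣ W.c₄) :
    ∃ ε : ℤ, (ε = 1 ∨ ε = -1) ∧ ∀ P : ValuationSubring Qbar, P.LiesOverPrime q →
      ∀ φ : GalQ, P.IsFrobeniusAt φ q →
        (tateRep p W hΔ φ).trace = (ε : ℤ_[p]) * ((q : ℤ_[p]) + 1) := by
  obtain ⟨A₀, hA₀⟩ := exists_liesOverPrime hq
  obtain ⟨nd₀⟩ := exists_node hq hA₀ hdvd hc4
  obtain ⟨φ₀, hφ₀⟩ := exists_isFrobeniusAt A₀ hq hA₀
  refine ⟨sgn nd₀ φ₀, sgn_cases nd₀ φ₀, fun P hP φ hφ => ?_⟩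
  obtain ⟨τ, rfl⟩ := exists_smul_eq_of_liesOverPrime hq hA₀ hP
  have h := isFrobeniusAt_smul hφ τ⁻¹
  rw [← mul_smul, inv_mul_cancel, one_smul, inv_inv] at h
  rw [← sgn_eq_of_frobenius nd₀ hq hA₀ h hφ₀,
    ← trace_tateRep_frobenius_of_node nd₀ hp2 hΔ hq hA₀ hqp h, map_mul, map_mul,
    Matrix.trace_mul_comm, ← mul_assoc, ← map_mul, mul_inv_cancel, _root_.map_one, one_mul]

/-- Inertia acts nontrivially. -/
theorem exists_tateRep_ne_one (hp2 : p ≠ 2) (hΔ : W.Δ ≠ 0) (hq : q.Prime) (hqp : q ≠ p)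
    (hdvd : (q : ℤ) ∣ W.Δ) (hc4 : ¬ (q : ℤ) ∣ W.c₄) :
    ∃ A : ValuationSubring Qbar, A.LiesOverPrime q ∧
      ∃ σ ∈ A.inertiaSubgroupIn ℚ, tateRep p W hΔ σ ≠ 1 := by
  classical
  have hp : p.Prime := Fact.out
  have := isElliptic (W := W) hΔ
  obtain ⟨A, hA⟩ := exists_liesOverPrime hq
  obtain ⟨nd⟩ := exists_node hq hA hdvd hc4
  refine ⟨A, hA, ?_⟩
  by_contra hcon
  push Not at hcon
  have hI : IntAt A ((EQ W)⁄Qbar : WeierstrassCurve Qbar) := ConductorMatch.intAt
  -- `c ≠ 0`, and some power of `q` is below it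
  have hc0 : nd.c ≠ 0 := by
    intro h0
    have heq : ((EQ W)⁄Qbar : WeierstrassCurve Qbar).toAffine.Equation nd.r nd.t := by
      rw [equation_iff]
      simp only [NodeData.c] at h0
      linear_combination -h0
    have hns := ((equation_iff_nonsingular (W := (EQ W)⁄Qbar)).1 heq)
    rw [nonsingular_iff'] at hns
    have e1 := nd.eY
    have e2 := nd.eX
    simp only [dY] at e1
    simp only [dX] at e2
    rcases hns.2 with h | h
    · exact h e2
    · exact h e1
  set w := A.valuation (q : Qbar) with hw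
  have hw1 : w < 1 := A.mem_nonunits_iff.1 hA
  have hw0 : 0 < w := A.valuation.pos_iff.2 (Nat.cast_ne_zero.2 hq.ne_zero)
  obtain ⟨N, hN⟩ : ∃ N : ℕ, w ^ N ≤ A.valuation nd.c := by
    obtain ⟨e, he, m, hm⟩ := (residueChar_of_liesOverPrime hq hA).exists_pow_eq_zpow hc0
    have hle : A.valuation nd.c ^ e ≤ A.valuation nd.c := by
      conv_rhs => rw [← pow_one (A.valuation nd.c)]
      exact pow_le_pow_of_le_one zero_le nd.val_c.le he
    refine ⟨m.toNat, le_trans ?_ hle⟩
    rw [hm, ← zpow_natCast]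
    exact zpow_le_zpow_right_of_le_one₀ hw0 hw1.le (Int.self_le_toNat m)
  -- a level with more classes than allowed
  obtain ⟨k, hk⟩ : ∃ k, 2 * N + 2 < p ^ k := ⟨2 * N + 2, Nat.lt_pow_self hp.one_lt⟩
  set n := p ^ k with hn
  have hnA : A.valuation ((n : ℕ) : Qbar) = 1 := val_natCast_eq_one hq hA fun h =>
    hqp ((Nat.prime_dvd_prime_iff_eq hq hp).mp (hq.dvd_of_dvd_pow h))
  have hodd : Odd n := (hp.odd_of_ne_two hp2).pow
  have hfix : ∀ σ ∈ A.inertiaSubgroupIn ℚ, ∀ z : Tor W n, σ • z = z := by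
    intro σ hσ z
    have h1 : galoisRepModuleEnd ℚ (EQ W) n σ = 1 := by
      refine (LinearMap.toMatrix (tateBasis p W hΔ k) (tateBasis p W hΔ k)).injective ?_
      rw [← levelRep_apply, ← map_tateRep, hcon σ hσ, LinearMap.toMatrix_one,
        Matrix.map_one _ (_root_.map_zero _) (_root_.map_one _)]
    exact LinearMap.congr_fun h1 z
  have hclass : ∀ z : Tor W n, ∃ l : Option (Bool × Fin N),
      (l = none ∧ InE0 A ((EQ W)⁄Qbar : WeierstrassCurve Qbar) (z : Pt W)) ∨
      ∃ (b : Bool) (j : Fin N), l = some (b, j) ∧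
        nd.Plus (if b then (z : Pt W) else -(z : Pt W)) (w ^ ((j : ℕ) + 1)) := by
    intro z
    by_cases hE : InE0 A ((EQ W)⁄Qbar : WeierstrassCurve Qbar) (z : Pt W)
    · exact ⟨none, Or.inl ⟨rfl, hE⟩⟩
    have hb : ∃ b : Bool, ∃ γ, nd.Plus (if b then (z : Pt W) else -(z : Pt W)) γ := by
      rcases nd.trichotomy hI hE with h | h | h
      · exact ⟨true, h⟩
      · exact ⟨false, h⟩
      · exfalso
        refine hE ?_
        obtain ⟨i, hi⟩ := hodd
        have h2 := h.two_inE0 nd hI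
        have hz : (z : Pt W) = -(i • ((z : Pt W) + (z : Pt W))) := by
          have h0 : (2 * i + 1) • (z : Pt W) = 0 :=
            (congrArg (· • (z : Pt W)) hi).symm.trans (ConductorMatch.nsmul_coe z)
          rw [add_smul, one_smul, mul_smul, two_smul] at h0
          rw [nsmul_add]
          exact eq_neg_of_add_eq_zero_right h0
        rw [hz, ← mem_E0 (hW := hI)]
        exact neg_mem (nsmul_mem (mem_E0.2 h2) i)
    obtain ⟨b, γ, hb⟩ := hb
    obtain ⟨x, y, h, hxe, hγ, hX, -⟩ := id hb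
    -- the abscissa is fixed by inertia
    have hxfix : ∀ σ ∈ A.inertiaSubgroupIn ℚ, σ (nd.X x) = nd.X x := by
      intro σ hσ
      have hz : σ • (z : Pt W) = z := by rw [← ConductorMatch.coe_smul, hfix σ hσ]
      have hsx : σ • (Point.some x y h : Pt W) = Point.some x y h := by
        rw [← hxe]
        cases b
        · simp only [Bool.false_eq_true, if_false, smul_neg, hz]
        · simp only [if_true, hz]
      rw [smul_some] at hsx
      rw [← (map_coord nd (valPres hq hA (mem_inertiaSubgroupIn_iff.1 hσ).1) (fixesCoeffs σ) x y).1,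
        ((Point.some.injEq ..).mp hsx).1]
    have hγ0 : γ ≠ 0 := by
      obtain ⟨x', y', h', -, -, -, hY'⟩ := id hb
      exact (zero_le.trans_lt hY').ne'
    obtain ⟨j, hj⟩ := LocalThree.exists_val_zpow hq hA
      (fun h0 => hγ0 (by rw [← hX, h0, _root_.map_zero])) hxfix
    rw [hX] at hj
    obtain ⟨π, hπ⟩ := IsAlgClosed.exists_pow_nat_eq nd.c two_pos
    have hπc : A.valuation nd.c = A.valuation π ^ (2 * 1) := by rw [← map_pow, mul_one, hπ]
    have hπ1 : A.valuation π < 1 := lt_of_not_ge fun hge =>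
      nd.val_c.not_ge (hπc ▸ one_le_pow₀ hge)
    have hlo := NodeData.Plus.pow_lt nd hπ1 le_rfl hπc hb
    rw [pow_one] at hlo
    have hcγ : A.valuation nd.c < γ := by
      rw [hπc, mul_one, sq]
      exact (mul_le_of_le_one_left' hπ1.le).trans_lt hlo
    have hj0 : 0 < j := by
      by_contra hle
      rw [not_lt] at hle
      exact hγ.not_ge (hj ▸ one_le_zpow_of_nonpos₀ hw0 hw1.le hle)
    have hjN : j < (N : ℤ) := by
      by_contra hle
      rw [not_lt] at hle
      refine (hN.trans_lt hcγ).not_ge ?_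
      rw [hj, ← zpow_natCast]
      exact zpow_le_zpow_right_of_le_one₀ hw0 hw1.le hle
    obtain ⟨j', hj'⟩ : ∃ j' : ℕ, j = ((j' + 1 : ℕ) : ℤ) := ⟨j.toNat - 1, by omega⟩
    refine ⟨some (b, ⟨j', by omega⟩), Or.inr ⟨b, _, rfl, ?_⟩⟩
    have hγj : γ = w ^ (j' + 1) := by rw [hj, hj', zpow_natCast]
    exact hγj ▸ hb
  choose lab hlab using hclass
  have := finite_torsionBy (EQ W) (K := Qbar)
    (Nat.cast_ne_zero.mpr (pow_ne_zero k hp.ne_zero) : ((n : ℕ) : Qbar) ≠ 0)
  have := Fintype.ofFinite (Tor W n)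
  have hfib : ∀ l, (Finset.univ.filter fun z => lab z = l).card ≤ n := by
    intro l
    rcases Finset.eq_empty_or_nonempty (Finset.univ.filter fun z => lab z = l) with he | ⟨z₀, hz₀⟩
    · rw [he]; exact Nat.zero_le n
    rw [Finset.mem_filter] at hz₀
    have hinj : Function.Injective fun z : Tor W n => (z : Pt W) - (z₀ : Pt W) :=
      fun a b h => Subtype.ext (sub_left_injective h)
    rw [← Finset.card_image_of_injective _ hinj]
    refine card_le_of_inE0 nd (pow_ne_zero k hp.ne_zero) hnA _ fun P hP => ?_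
    obtain ⟨z, hz, rfl⟩ := Finset.mem_image.1 hP
    rw [Finset.mem_filter] at hz
    refine ⟨by rw [nsmul_sub, ConductorMatch.nsmul_coe, ConductorMatch.nsmul_coe, sub_zero], ?_⟩
    rcases hlab z with ⟨hl, hE⟩ | ⟨b, j, hl, hb⟩ <;>
      rcases hlab z₀ with ⟨hl₀, hE₀⟩ | ⟨b₀, j₀, hl₀, hb₀⟩ <;>
      rw [hz.2] at hl <;> rw [hz₀.2] at hl₀ <;> rw [hl] at hl₀
    · exact hE.sub hI hE₀
    · cases hl₀
    · cases hl₀
    · obtain ⟨rfl, rfl⟩ := Prod.mk.inj (Option.some.inj hl₀)
      have h := NodeData.Plus.sub_inE0 nd hI hb hb₀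
      cases b
      · simp only [Bool.false_eq_true, if_false] at h
        have := h.neg hI
        rwa [neg_sub, neg_sub_neg] at this
      · simpa using h
  have hcount := Finset.card_le_mul_card_image_of_maps_to (s := (Finset.univ : Finset (Tor W n)))
    (f := lab) (fun a _ => Finset.mem_univ (lab a)) n (fun l _ => hfib l)
  rw [Finset.card_univ, ← Nat.card_eq_fintype_card,
    card_torsionBy (EQ W) (Nat.cast_ne_zero.mpr (pow_ne_zero k hp.ne_zero)), Finset.card_univ,
    Fintype.card_option, Fintype.card_prod, Fintype.card_bool, Fintype.card_fin, sq] at hcount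
  have := Nat.le_of_mul_le_mul_left hcount (Nat.pos_of_ne_zero (pow_ne_zero k hp.ne_zero))
  omega

end FLTAgent.TateLocal
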