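import Fermat.Agent.ECReduction.Node
import Mathlib.Algebra.Order.GroupWithZero.Canonical

/-!
# The multiplicative parameter at a node

On points with nonsingular reduction the ratio of the two tangent coordinates is a unit whose
residue is multiplicative, and it is `1` only near infinity (`ratio`, `val_ratio_add`).
-/

set_option autoImplicit false

noncomputable section

namespace FLTAgent.TateLocal

open WeierstrassCurve WeierstrassCurve.Affine FLTAgent.ECReduction

variable {K : Type*} [Field K] {A : ValuationSubring K} {W : WeierstrassCurve K}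

local notation "v" => A.valuation

theorem val_mul_congr {a a' b b' : K} (ha : v a ≤ 1) (hb' : v b' ≤ 1) (h : v (a - a') < 1)
    (h' : v (b - b') < 1) : v (a * b - a' * b') < 1 := by
  rw [show a * b - a' * b' = a * (b - b') + (a - a') * b' by ring]
  exact val_add_lt A (val_mul_lt_right A ha h') (val_mul_lt_left A h hb')

theorem val_congr_trans {a b c : K} (h : v (a - b) < 1) (h' : v (b - c) < 1) : v (a - c) < 1 := by
  rw [show a - c = (a - b) + (b - c) by ring]
  exact val_add_lt A h h'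

theorem val_congr_inv {a b : K} (ha : v a = 1) (hb : v b = 1) (h : v (a - b) < 1) :
    v (a⁻¹ - b⁻¹) < 1 := by
  rw [inv_sub_inv (ne_zero_of_val_eq_one A ha) (ne_zero_of_val_eq_one A hb), map_div₀, map_mul, ha,
    hb, one_mul, div_one, A.valuation.map_sub_swap]
  exact h

variable (nd : NodeData A W)

/-- The second tangent coordinate. -/
def Z (x y : K) : K := nd.Y x y + nd.u * nd.X x

/-- The ratio of the two tangent coordinates. -/
def ratio : W.toAffine.Point → K
  | 0 => 1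
  | .some x y _ => nd.Y x y / Z nd x y

@[simp] theorem ratio_zero : ratio nd (0 : W.toAffine.Point) = 1 := rfl

theorem ratio_some {x y : K} (h : W.toAffine.Nonsingular x y) :
    ratio nd (.some x y h : W.toAffine.Point) = nd.Y x y / Z nd x y := rfl

theorem ratio_neg (P : W.toAffine.Point) : ratio nd (-P) = (ratio nd P)⁻¹ := by
  rcases P with _ | ⟨x, y, h⟩
  · exact inv_one.symm
  · rw [Point.neg_some, ratio_some, ratio_some, inv_div, Z, Z, nd.negY_eq,
      show -nd.Y x y - nd.u * nd.X x = -(nd.Y x y + nd.u * nd.X x) by ring,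
      show -(nd.Y x y + nd.u * nd.X x) + nd.u * nd.X x = -nd.Y x y by ring, neg_div_neg_eq]

/-- The values of the tangent coordinates at a point with nonsingular reduction. -/
theorem coord_facts (hW : IntAt A W) {x y : K} (h : W.toAffine.Equation x y)
    (hP : ¬ ResSingular A W x y) :
    v (nd.Y x y) = v (Z nd x y) ∧ 1 ≤ v (nd.Y x y) ∧ v (nd.X x) ≤ v (nd.Y x y) ∧
      (v (nd.X x) = 1 ∨ v (nd.u * nd.X x) < v (nd.Y x y) ∧ 1 < v (nd.X x)) := by
  have he := nd.eq_XY h
  have hc := nd.val_c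
  have hu := nd.val_u_mul (nd.X x)
  rw [nd.resSingular_iff hW h] at hP
  unfold Z
  set X := nd.X x
  set Y := nd.Y x y
  rcases le_or_gt (v X) 1 with hX | hX
  · have hY : v Y ≤ 1 := val_le_of_quadratic (hu.trans_le hX)
      (val_neg_le A (val_add_le A (val_pow_le A hX 3) hc.le))
      (show Y ^ 2 + nd.u * X * Y + -(X ^ 3 + nd.c) = 0 by linear_combination he)
    have hX1 : v X = 1 := by
      refine le_antisymm hX (not_lt.1 fun hlt => hP ⟨hlt, ?_⟩)
      have hp : v (Y * (Y + nd.u * X)) < 1 :=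
        he ▸ val_add_lt A (val_pow_lt A hlt three_ne_zero) hc
      rcases val_lt_one_or_of_mul_lt A hp with h1 | h1
      · exact h1
      · rw [show Y = (Y + nd.u * X) - nd.u * X by ring]
        exact val_sub_lt A h1 (hu.trans_lt hlt)
    have hp : v Y * v (Y + nd.u * X) = 1 := by
      rw [← map_mul, he, A.valuation.map_add_eq_of_lt_left (by rwa [map_pow, hX1, one_pow]),
        map_pow, hX1, one_pow]
    have hZ : v (Y + nd.u * X) ≤ 1 := val_add_le A hY (hu.trans_le hX)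
    have hY1 : v Y = 1 := le_antisymm hY (not_lt.1 fun hlt =>
      (lt_of_le_of_lt (mul_le_of_le_one_right' hZ) hlt).ne hp)
    rw [hY1, one_mul] at hp
    exact ⟨hY1.trans hp.symm, hY1.ge, (hX1.trans hY1.symm).le, Or.inl hX1⟩
  · have h3 : v X ^ 2 < v (X ^ 3) := by
      rw [map_pow]; exact pow_lt_pow_right₀ hX (by norm_num)
    have hp : v (Y * (Y + nd.u * X)) = v (X ^ 3) := by
      rw [he, A.valuation.map_add_eq_of_lt_left]
      exact hc.trans ((one_lt_pow₀ hX two_ne_zero).trans h3)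
    have hlt : v (nd.u * X) < v Y := by
      rw [hu]
      by_contra hle
      rw [not_lt] at hle
      refine h3.not_ge ?_
      rw [← hp, map_mul, sq]
      exact mul_le_mul' hle (A.valuation.map_add_le hle hu.le)
    refine ⟨(A.valuation.map_add_eq_of_lt_left hlt).symm, ?_, ?_, Or.inr ⟨hlt, hX⟩⟩
    · exact hX.le.trans (hu.ge.trans hlt.le)
    · exact hu.ge.trans hlt.le

theorem val_ratio (hW : IntAt A W) {P : W.toAffine.Point} (hP : InE0 A W P) :
    v (ratio nd P) = 1 := by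
  rcases P with _ | ⟨x, y, h⟩
  · exact _root_.map_one _
  · obtain ⟨h1, h2, -, -⟩ := coord_facts nd hW h.1 hP
    rw [ratio_some, map_div₀, ← h1, div_self (zero_lt_one.trans_le h2).ne']

/-- A point with nonsingular reduction and trivial parameter reduces to the point at infinity. -/
theorem inE1_of_ratio (hW : IntAt A W) {P : W.toAffine.Point} (hP : InE0 A W P)
    (h1 : v (ratio nd P - 1) < 1) : InE1 A W P := by
  rcases P with _ | ⟨x, y, h⟩
  · exact trivial
  obtain ⟨hYZ, hY, -, hX⟩ := coord_facts nd hW h.1 hP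
  rcases hX with hX | ⟨-, hX⟩
  · have hZ0 : Z nd x y ≠ 0 := fun h0 => by
      rw [hYZ, h0, _root_.map_zero] at hY
      exact hY.not_gt zero_lt_one
    have hY1 : v (nd.Y x y) ≤ 1 :=
      val_le_of_quadratic ((nd.val_u_mul _).trans_le hX.le)
        (val_neg_le A (val_add_le A (val_pow_le A hX.le 3) nd.val_c.le))
        (show nd.Y x y ^ 2 + nd.u * nd.X x * nd.Y x y + -(nd.X x ^ 3 + nd.c) = 0 by
          linear_combination nd.eq_XY h.1)
    rw [ratio_some, div_sub_one hZ0, map_div₀,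
      show nd.Y x y - Z nd x y = -(nd.u * nd.X x) by rw [Z]; ring, A.valuation.map_neg,
      nd.val_u_mul, hX, ← hYZ, le_antisymm hY1 hY, one_div, inv_one] at h1
    exact absurd h1 (lt_irrefl _)
  · rw [inE1_some]
    by_contra hx
    rw [not_lt] at hx
    exact hX.not_ge (val_sub_le A hx nd.hr)

variable [DecidableEq K]

/-- The residue of the parameter is multiplicative. -/
theorem val_ratio_add (hW : IntAt A W) {P Q : W.toAffine.Point} (hP : InE0 A W P)
    (hQ : InE0 A W Q) : v (ratio nd (P + Q) - ratio nd P * ratio nd Q) < 1 := by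
  rcases P with _ | ⟨x₁, y₁, h₁⟩
  · simp [← Point.zero_def]
  rcases Q with _ | ⟨x₂, y₂, h₂⟩
  · simp [← Point.zero_def]
  have hPQ := hP.add hW hQ
  by_cases hxy : x₁ = x₂ ∧ y₁ = W.toAffine.negY x₂ y₂
  · have hne : ratio nd (.some x₁ y₁ h₁ : W.toAffine.Point) ≠ 0 :=
      ne_zero_of_val_eq_one A (val_ratio nd hW hP)
    have hQP : (Point.some x₂ y₂ h₂ : W.toAffine.Point) = -Point.some x₁ y₁ h₁ := by
      rw [← add_eq_zero_iff_neg_eq.1 (Point.add_of_Y_eq (h₁ := h₁) (h₂ := h₂) hxy.1 hxy.2)]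
    rw [hQP, add_neg_cancel, ratio_neg, mul_inv_cancel₀ hne, ratio_zero, sub_self,
      _root_.map_zero]
    exact zero_lt_one
  rw [Point.add_some hxy] at hPQ ⊢
  set l := W.toAffine.slope x₁ x₂ y₁ y₂ with hl
  set x₃ := W.toAffine.addX x₁ x₂ l with hx₃
  set y₃ := W.toAffine.negAddY x₁ x₂ y₁ l with hy₃
  have hT : ¬ ResSingular A W x₃ y₃ := by
    rw [inE0_some, addY, resSingular_negY_iff hW] at hPQ
    exact hPQ
  obtain ⟨f1, g1, k1, -⟩ := coord_facts nd hW h₁.1 hP
  obtain ⟨f2, g2, k2, -⟩ := coord_facts nd hW h₂.1 hQ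
  obtain ⟨f3, g3, k3, -⟩ := coord_facts nd hW (equation_negAdd h₁.1 h₂.1 hxy) hT
  rw [← hl] at f3 g3 k3
  simp only [← hx₃, ← hy₃] at f3 g3 k3
  -- the line in the normalised coordinates
  have hy₂ : y₂ = l * (x₂ - x₁) + y₁ := by
    by_cases hx : x₁ = x₂
    · rw [← hx, sub_self, mul_zero, zero_add]
      exact (Y_eq_of_Y_ne h₁.1 h₂.1 hx fun h => hxy ⟨hx, h⟩).symm
    · rw [hl, slope_of_X_ne hx]
      field_simp [sub_ne_zero.2 hx]
      ring
  set L := l - nd.s with hL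
  set ν := nd.Y x₁ y₁ - L * nd.X x₁ with hν
  have hY1 : nd.Y x₁ y₁ = L * nd.X x₁ + ν := by rw [hν]; ring
  have hY2 : nd.Y x₂ y₂ = L * nd.X x₂ + ν := by
    rw [hν, hL]; simp only [NodeData.X, NodeData.Y]; rw [hy₂]; ring
  have hY3 : nd.Y x₃ y₃ = L * nd.X x₃ + ν := by
    rw [hν, hL, hy₃, negAddY]; simp only [NodeData.X, NodeData.Y, ← hx₃]; ring
  have e1 : nd.X x₁ + nd.X x₂ + nd.X x₃ = L * (L + nd.u) := by
    rw [hx₃, nd.addX_eq]; ring
  have hcub := addPolynomial_slope h₁.1 h₂.1 hxy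
  rw [← hl, addPolynomial_eq, neg_inj, Cubic.prod_X_sub_C_eq, Cubic.toPoly_injective] at hcub
  have hcc := congrArg Cubic.c hcub
  have hdd := congrArg Cubic.d hcub
  simp only [← hx₃] at hcc hdd
  have eY := nd.eY
  have eX := nd.eX
  simp only [dY] at eY
  simp only [dX] at eX
  have hl' : x₁ + x₂ + x₃ = l ^ 2 + W.a₁ * l - W.a₂ := by rw [hx₃]; simp only [addX]; ring
  have e2 : nd.X x₁ * nd.X x₂ + nd.X x₁ * nd.X x₃ + nd.X x₂ * nd.X x₃ =
      -ν * (2 * L + nd.u) := by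
    simp only [hν, hL, NodeData.X, NodeData.Y, NodeData.u]
    linear_combination -hcc - eX - l * eY - 2 * nd.r * hl'
  have e3 : nd.X x₁ * nd.X x₂ * nd.X x₃ = ν ^ 2 - nd.c := by
    simp only [hν, hL, NodeData.X, NodeData.Y, NodeData.c]
    linear_combination hdd + nd.r * hcc +
      (y₁ - nd.t - l * (x₁ - nd.r)) * eY + nd.r ^ 2 * hl'
  set L' := L + nd.u with hL'
  have pY : nd.Y x₁ y₁ * nd.Y x₂ y₂ * nd.Y x₃ y₃ = ν ^ 3 - nd.c * L ^ 3 := by
    rw [hY1, hY2, hY3]
    linear_combination L ^ 3 * e3 + L ^ 2 * ν * e2 + L * ν ^ 2 * e1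
  have pZ : Z nd x₁ y₁ * Z nd x₂ y₂ * Z nd x₃ y₃ = ν ^ 3 - nd.c * L' ^ 3 := by
    simp only [Z, hY1, hY2, hY3, hL']
    linear_combination (L + nd.u) ^ 3 * e3 + (L + nd.u) ^ 2 * ν * e2 + (L + nd.u) * ν ^ 2 * e1
  set M := v (nd.Y x₁ y₁ * nd.Y x₂ y₂ * nd.Y x₃ y₃) with hM
  have hM' : M = v (nd.Y x₁ y₁) * v (nd.Y x₂ y₂) * v (nd.Y x₃ y₃) := by rw [hM, map_mul, map_mul]
  have hM1 : 1 ≤ M := hM' ▸ one_le_mul (one_le_mul g1 g2) g3
  have hkey : v (3 * L ^ 2 + 3 * L * nd.u + nd.u ^ 2) ≤ M := by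
    rcases le_or_gt (v L) 1 with hle | hgt
    · exact (val_add_le A (val_add_le A (val_mul_le A (val_ofNat_le A 3) (val_pow_le A hle 2))
        (val_mul_le A (val_mul_le A (val_ofNat_le A 3) hle) nd.val_u.le))
        (val_pow_le A nd.val_u.le 2)).trans hM1
    have hsq : v L ^ 2 = v (L * (L + nd.u)) := by
      rw [map_mul, A.valuation.map_add_eq_of_lt_left (nd.val_u.trans_lt hgt), sq]
    have hLM : v L ^ 2 ≤ M := by
      rw [hsq, ← e1, hM']
      refine A.valuation.map_add_le (A.valuation.map_add_le ?_ ?_) ?_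
      · exact k1.trans (le_mul_of_one_le_right' g3 |>.trans' (le_mul_of_one_le_right' g2))
      · exact k2.trans (le_mul_of_one_le_right' g3 |>.trans' (le_mul_of_one_le_left' g1))
      · exact k3.trans (le_mul_of_one_le_left' (one_le_mul g1 g2))
    have hl1 : v L ≤ v L ^ 2 := le_self_pow hgt.le two_ne_zero
    refine le_trans (A.valuation.map_add_le (A.valuation.map_add_le ?_ ?_) ?_) hLM
    · rw [map_mul, map_pow]; exact mul_le_of_le_one_left' (val_ofNat_le A 3)
    · rw [map_mul, map_mul, nd.val_u, mul_one]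
      exact (mul_le_of_le_one_left' (val_ofNat_le A 3)).trans hl1
    · rw [map_pow, nd.val_u, one_pow]; exact hgt.le.trans hl1
  have hdiff : v (Z nd x₁ y₁ * Z nd x₂ y₂ * Z nd x₃ y₃ -
      nd.Y x₁ y₁ * nd.Y x₂ y₂ * nd.Y x₃ y₃) < M := by
    rw [pY, pZ, show ν ^ 3 - nd.c * L' ^ 3 - (ν ^ 3 - nd.c * L ^ 3) =
      -(nd.c * (nd.u * (3 * L ^ 2 + 3 * L * nd.u + nd.u ^ 2))) by rw [hL']; ring,
      A.valuation.map_neg, map_mul, nd.val_u_mul]
    exact (mul_le_mul_right hkey _).trans_lt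
      (mul_lt_of_lt_one_left (zero_lt_one.trans_le hM1) nd.val_c)
  have hne : ∀ {x y : K}, v (nd.Y x y) = v (Z nd x y) → 1 ≤ v (nd.Y x y) →
      Z nd x y ≠ 0 ∧ nd.Y x y ≠ 0 := fun {x y} h1 h2 =>
    ⟨fun h0 => by rw [h1, h0, _root_.map_zero] at h2; exact h2.not_gt zero_lt_one,
      fun h0 => by rw [h0, _root_.map_zero] at h2; exact h2.not_gt zero_lt_one⟩
  have hn3 := hne f3 g3
  have hsum : ratio nd (.some x₃ (W.toAffine.addY x₁ x₂ y₁ l) (nonsingular_add h₁ h₂ hxy)
      : W.toAffine.Point) = Z nd x₃ y₃ / nd.Y x₃ y₃ := by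
    rw [ratio_some, Z, Z, addY, ← hx₃, ← hy₃, nd.negY_eq,
      show -nd.Y x₃ y₃ - nd.u * nd.X x₃ = -(nd.Y x₃ y₃ + nd.u * nd.X x₃) by ring,
      show -(nd.Y x₃ y₃ + nd.u * nd.X x₃) + nd.u * nd.X x₃ = -nd.Y x₃ y₃ by ring, neg_div_neg_eq]
  rw [hsum, ratio_some, ratio_some,
    show Z nd x₃ y₃ / nd.Y x₃ y₃ - nd.Y x₁ y₁ / Z nd x₁ y₁ * (nd.Y x₂ y₂ / Z nd x₂ y₂) =
      (Z nd x₁ y₁ * Z nd x₂ y₂ * Z nd x₃ y₃ - nd.Y x₁ y₁ * nd.Y x₂ y₂ * nd.Y x₃ y₃) /
        (Z nd x₁ y₁ * Z nd x₂ y₂ * nd.Y x₃ y₃) by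
      field_simp [(hne f1 g1).1, (hne f2 g2).1, hn3.2],
    map_div₀, map_mul, map_mul, ← f1, ← f2, ← hM', div_lt_one₀ (zero_lt_one.trans_le hM1)]
  exact hdiff

theorem val_ratio_nsmul (hW : IntAt A W) {P : W.toAffine.Point} (hP : InE0 A W P) (n : ℕ) :
    v (ratio nd (n • P) - ratio nd P ^ n) < 1 := by
  induction n with
  | zero => simp
  | succ n ih =>
    rw [succ_nsmul, pow_succ]
    have hn : InE0 A W (n • P) := mem_E0.1 (nsmul_mem (mem_E0 (hW := hW).2 hP) n)
    refine val_congr_trans (val_ratio_add nd hW hn hP) ?_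
    exact val_mul_congr (val_ratio nd hW hn).le (val_ratio nd hW hP).le ih
      (by rw [sub_self, _root_.map_zero]; exact zero_lt_one)

theorem val_ratio_zsmul (hW : IntAt A W) {P : W.toAffine.Point} (hP : InE0 A W P) (n : ℤ) :
    v (ratio nd (n • P) - ratio nd P ^ n) < 1 := by
  have h1 := val_ratio nd hW hP
  rcases Int.eq_nat_or_neg n with ⟨m, rfl | rfl⟩
  · rw [natCast_zsmul, zpow_natCast]
    exact val_ratio_nsmul nd hW hP m
  · rw [neg_zsmul, natCast_zsmul, zpow_neg, zpow_natCast, ratio_neg]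
    exact val_congr_inv (val_ratio nd hW (mem_E0.1 (nsmul_mem (mem_E0 (hW := hW).2 hP) m)))
      (by rw [map_pow, h1, one_pow]) (val_ratio_nsmul nd hW hP m)

end FLTAgent.TateLocal
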