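import Fermat.Agent.ECTorsion.TorsionReduction
import Mathlib.AlgebraicGeometry.EllipticCurve.Projective.Point

/-!
# Good reduction in projective coordinates

Primitive representatives of points (`rep`), and the one addition formula, valid on all pairs up to
a scalar which is a unit when the reductions differ (`exists_addXYZ`, `addXYZ_of_red_ne`).
-/

set_option autoImplicit false

noncomputable section

open WeierstrassCurve
open scoped WeierstrassCurve.Projective

namespace FLTAgent.TateLocal.Proj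

open FLTAgent.ECReduction

variable {K : Type*} [Field K] {A : ValuationSubring K} (W₁ : WeierstrassCurve A)

local notation "res" => IsLocalRing.residue A
local notation "E" => W₁.map A.subtype
local notation "Eb" => W₁.map (IsLocalRing.residue A)

theorem equiv_of_toAffine_eq {F : Type*} [Field F] {W : WeierstrassCurve F} {P Q : Fin 3 → F}
    (hP : W.toProjective.Nonsingular P) (hQ : W.toProjective.Nonsingular Q)
    (h : Projective.Point.toAffine W.toProjective P = Projective.Point.toAffine W.toProjective Q) :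
    P ≈ Q := by
  by_cases hPz : P 2 = 0 <;> by_cases hQz : Q 2 = 0
  · exact Projective.equiv_of_Z_eq_zero hP hQ hPz hQz
  · rw [Projective.Point.toAffine_of_Z_eq_zero hPz, Projective.Point.toAffine_of_Z_ne_zero hQ hQz]
      at h
    exact absurd h (Affine.Point.some_ne_zero _).symm
  · rw [Projective.Point.toAffine_of_Z_ne_zero hP hPz, Projective.Point.toAffine_of_Z_eq_zero hQz]
      at h
    exact absurd h (Affine.Point.some_ne_zero _)
  · rw [Projective.Point.toAffine_of_Z_ne_zero hP hPz,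
      Projective.Point.toAffine_of_Z_ne_zero hQ hQz,
      Affine.Point.some.injEq] at h
    exact Setoid.trans (Projective.equiv_some_of_Z_ne_zero hPz) (by
      rw [h.1, h.2]; exact Setoid.symm (Projective.equiv_some_of_Z_ne_zero hQz))

open scoped Classical in
/-- Integral coordinates of a point with one of them invertible. -/
def rep : (E).toAffine.Point → (Fin 3 → A)
  | .zero => ![0, 1, 0]
  | .some x y _ =>
    if h : x ∈ A ∧ y ∈ A then ![⟨x, h.1⟩, ⟨y, h.2⟩, 1]
    else if h' : x / y ∈ A ∧ y⁻¹ ∈ A then ![⟨x / y, h'.1⟩, 1, ⟨y⁻¹, h'.2⟩] else 0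

/-- The reduction of a point. -/
def red (P : (E).toAffine.Point) : (Eb).toAffine.Point :=
  Projective.Point.toAffine (Eb).toProjective (res ∘ rep W₁ P)

theorem rep_zero : rep W₁ (0 : (E).toAffine.Point) = ![0, 1, 0] := rfl

theorem rep_of_mem {x y : K} (h : (E).toAffine.Nonsingular x y) (hx : x ∈ A) (hy : y ∈ A) :
    rep W₁ (.some x y h) = ![⟨x, hx⟩, ⟨y, hy⟩, 1] := dif_pos ⟨hx, hy⟩

theorem mem_cases {x y : K} (h : (E).toAffine.Nonsingular x y) :
    (x ∈ A ∧ y ∈ A) ∨ (¬ (x ∈ A ∧ y ∈ A) ∧ x / y ∈ A ∧ y⁻¹ ∈ A ∧ y ≠ 0) := by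
  have hW := ECTorsion.Red.intAt (W₁ := W₁)
  have he := h.1
  rw [Affine.equation_iff] at he
  by_cases hx : A.valuation x ≤ 1
  · exact Or.inl ⟨(val_le_iff A).1 hx, (val_le_iff A).1 (val_le_of_monic_quadratic hW hx he)⟩
  rw [not_le] at hx
  have hlt : A.valuation x < A.valuation y := by
    by_contra hle
    rw [not_lt] at hle
    set v := A.valuation
    have hx2 : v x ^ 2 < v x ^ 3 := pow_lt_pow_right₀ hx (by norm_num)
    have hL : v (y ^ 2 + (E).a₁ * x * y + (E).a₃ * y) ≤ v x ^ 2 := by
      refine v.map_add_le (v.map_add_le ?_ ?_) ?_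
      · rw [map_pow]; exact pow_le_pow_left₀ zero_le hle 2
      · rw [map_mul, map_mul, sq]
        exact mul_le_mul' (mul_le_of_le_one_left' hW.h₁) hle
      · rw [map_mul]
        exact (mul_le_of_le_one_left' hW.h₃).trans (hle.trans (le_self_pow hx.le two_ne_zero))
    have hR : v (x ^ 3 + (E).a₂ * x ^ 2 + (E).a₄ * x + (E).a₆) = v x ^ 3 := by
      rw [show x ^ 3 + (E).a₂ * x ^ 2 + (E).a₄ * x + (E).a₆ =
        x ^ 3 + ((E).a₂ * x ^ 2 + (E).a₄ * x + (E).a₆) by ring,
        v.map_add_eq_of_lt_left, map_pow]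
      rw [map_pow]
      refine lt_of_le_of_lt (v.map_add_le (v.map_add_le ?_ ?_) ?_) hx2
      · rw [map_mul, map_pow]; exact mul_le_of_le_one_left' hW.h₂
      · rw [map_mul]; exact (mul_le_of_le_one_left' hW.h₄).trans (le_self_pow hx.le two_ne_zero)
      · exact hW.h₆.trans (hx.le.trans (le_self_pow hx.le two_ne_zero))
    rw [he, hR] at hL
    exact not_le.2 hx2 hL
  refine Or.inr ⟨fun hh => absurd ((val_le_iff A).2 hh.1) (not_le.2 hx), ?_, ?_, ?_⟩
  · rw [← val_le_iff, map_div₀]
    exact (div_le_one₀ (lt_of_le_of_lt zero_le hlt)).2 hlt.le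
  · rw [← val_le_iff, map_inv₀]
    exact inv_le_one_of_one_le₀ (hx.trans hlt).le
  · exact ne_zero_of_one_lt_val A (hx.trans hlt)

variable [W₁.IsElliptic]

omit [W₁.IsElliptic] in
theorem subtype_rep (P : (E).toAffine.Point) :
    (E).toProjective.Nonsingular (A.subtype ∘ rep W₁ P) ∧
      Projective.Point.toAffine (E).toProjective (A.subtype ∘ rep W₁ P) = P := by
  rcases P with _ | ⟨x, y, h⟩
  · have e : A.subtype ∘ rep W₁ (.zero : (E).toAffine.Point) = ![0, 1, 0] := by
      funext i; fin_cases i <;> rfl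
    rw [e]
    exact ⟨Projective.nonsingular_zero, Projective.Point.toAffine_zero⟩
  have hns : (E).toProjective.Nonsingular ![x, y, 1] := (Projective.nonsingular_some _ _).2 h
  have ha := Projective.Point.toAffine_some (W := (E).toProjective) hns
  rcases mem_cases W₁ h with ⟨hx, hy⟩ | ⟨hn, hx, hy, hy0⟩
  · have e : A.subtype ∘ rep W₁ (.some x y h) = ![x, y, 1] := by
      rw [rep_of_mem W₁ h hx hy]; funext i; fin_cases i <;> rfl
    rw [e]
    exact ⟨hns, ha⟩
  · have e : A.subtype ∘ rep W₁ (.some x y h) = y⁻¹ • ![x, y, 1] := by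
      rw [rep, dif_neg hn, dif_pos ⟨hx, hy⟩]
      funext i
      fin_cases i <;> simp [div_eq_inv_mul, hy0]
    have hu : IsUnit y⁻¹ := (inv_ne_zero hy0).isUnit
    rw [e]
    exact ⟨(Projective.nonsingular_smul _ hu).2 hns,
      (Projective.Point.toAffine_smul _ hu).trans ha⟩

theorem residue_rep_nonsingular (P : (E).toAffine.Point) :
    (Eb).toProjective.Nonsingular (res ∘ rep W₁ P) := by
  have heq : W₁.toProjective.Equation (rep W₁ P) :=
    (Projective.map_equation (W' := W₁.toProjective) (f := A.subtype) Subtype.val_injective _).1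
        (subtype_rep W₁ P).1.1
  have hb : (Eb).toProjective.Equation (res ∘ rep W₁ P) := heq.map res
  have hne : (res ∘ rep W₁ P) 2 = 0 → (res ∘ rep W₁ P) 1 ≠ 0 := by
    rcases P with _ | ⟨x, y, h⟩
    · exact fun _ => by simp [rep]
    · rcases mem_cases W₁ h with ⟨hx, hy⟩ | ⟨hn, hx, hy, -⟩
      · intro h2; simp [rep_of_mem W₁ h hx hy] at h2
      · intro _; simp [rep, hn, hx, hy]
  by_cases hz : (res ∘ rep W₁ P) 2 = 0
  · rw [Projective.nonsingular_of_Z_eq_zero hz]
    refine ⟨hb, Or.inr ?_⟩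
    rw [Projective.X_eq_zero_of_Z_eq_zero hb hz]
    simpa using hne hz
  · rw [Projective.nonsingular_of_Z_ne_zero hz]
    exact Affine.equation_iff_nonsingular.mp ((Projective.equation_of_Z_ne_zero hz).1 hb)

omit [W₁.IsElliptic] in
theorem exists_isUnit_rep (P : (E).toAffine.Point) : ∃ i, IsUnit (rep W₁ P i) := by
  rcases P with _ | ⟨x, y, h⟩
  · exact ⟨1, isUnit_one⟩
  · rcases mem_cases W₁ h with ⟨hx, hy⟩ | ⟨hn, hx, hy, -⟩
    · exact ⟨2, by simp [rep_of_mem W₁ h hx hy]⟩
    · exact ⟨1, by simp [rep, hn, hx, hy]⟩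

theorem red_some {x y : A} (h : (E).toAffine.Nonsingular x y) :
    ∃ h', red W₁ (.some (x : K) y h) = Affine.Point.some (res x) (res y) h' := by
  have hP := residue_rep_nonsingular W₁ (.some (x : K) y h)
  have e : res ∘ rep W₁ (.some (x : K) y h) = ![res x, res y, 1] := by
    rw [rep_of_mem W₁ h x.2 y.2]
    funext i; fin_cases i <;> simp
  rw [e] at hP
  rw [red, e]
  exact ⟨_, Projective.Point.toAffine_some hP⟩

theorem red_neg_some {x y : A} (h : (E).toAffine.Nonsingular x y)
    [DecidableEq (IsLocalRing.ResidueField A)] :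
    red W₁ (-(.some (x : K) y h : (E).toAffine.Point)) = -red W₁ (.some (x : K) y h) := by
  have hy : (E).toAffine.negY (x : K) y = ((W₁.toAffine.negY x y : A) : K) :=
    Affine.map_negY (W' := W₁.toAffine) A.subtype x y
  have h' : (E).toAffine.Nonsingular (x : K) ((W₁.toAffine.negY x y : A) : K) :=
    hy ▸ (Affine.nonsingular_neg ..).2 h
  rw [Affine.Point.neg_some, show (Affine.Point.some (x : K) ((E).toAffine.negY (x : K) y)
    ((Affine.nonsingular_neg ..).2 h) : (E).toAffine.Point) =
      Affine.Point.some (x : K) ((W₁.toAffine.negY x y : A) : K) h' by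
    rw [Affine.Point.some.injEq]; exact ⟨rfl, hy⟩]
  obtain ⟨_, e1⟩ := red_some W₁ h'
  obtain ⟨_, e2⟩ := red_some W₁ h
  rw [e1, e2, Affine.Point.neg_some, Affine.Point.some.injEq]
  exact ⟨rfl, (Affine.map_negY (W' := W₁.toAffine) res x y).symm⟩

variable [DecidableEq K]

omit [W₁.IsElliptic] in
/-- The addition formula on primitive representatives. -/
theorem exists_addXYZ (P Q : (E).toAffine.Point) :
    ∃ lam : K, (E).toProjective.addXYZ (A.subtype ∘ rep W₁ P) (A.subtype ∘ rep W₁ Q) =
      lam • (A.subtype ∘ rep W₁ (P + Q)) := by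
  obtain ⟨hP, hPa⟩ := subtype_rep W₁ P
  obtain ⟨hQ, hQa⟩ := subtype_rep W₁ Q
  obtain ⟨hS, hSa⟩ := subtype_rep W₁ (P + Q)
  by_cases h : (A.subtype ∘ rep W₁ P) ≈ (A.subtype ∘ rep W₁ Q)
  · obtain ⟨u, hu⟩ := h
    refine ⟨0, ?_⟩
    rw [← hu, zero_smul]
    show (E).toProjective.addXYZ ((u : K) • (A.subtype ∘ rep W₁ Q)) (A.subtype ∘ rep W₁ Q) = 0
    conv_lhs => arg 3; rw [← one_smul K (A.subtype ∘ rep W₁ Q)]
    rw [Projective.addXYZ_smul, Projective.addXYZ_self]
    funext i; fin_cases i <;> simp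
  · have hadd := Projective.Point.toAffine_add hP hQ
    rw [Projective.add_of_not_equiv h, hPa, hQa] at hadd
    have hn : (E).toProjective.Nonsingular
        ((E).toProjective.addXYZ (A.subtype ∘ rep W₁ P) (A.subtype ∘ rep W₁ Q)) :=
      Projective.add_of_not_equiv h ▸ Projective.nonsingular_add hP hQ
    obtain ⟨u, hu⟩ := equiv_of_toAffine_eq hn hS (hadd.trans hSa.symm)
    exact ⟨u, hu.symm⟩

variable [DecidableEq (IsLocalRing.ResidueField A)]

/-- Where the reductions differ the scalar is a unit and reduction is additive. -/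
theorem addXYZ_of_red_ne {P Q : (E).toAffine.Point} (h : red W₁ P ≠ red W₁ Q) :
    red W₁ (P + Q) = red W₁ P + red W₁ Q ∧
      ∀ lam : K, (E).toProjective.addXYZ (A.subtype ∘ rep W₁ P) (A.subtype ∘ rep W₁ Q) =
        lam • (A.subtype ∘ rep W₁ (P + Q)) → A.valuation lam = 1 := by
  have hP := residue_rep_nonsingular W₁ P
  have hQ := residue_rep_nonsingular W₁ Q
  have hne : ¬ (res ∘ rep W₁ P) ≈ (res ∘ rep W₁ Q) := fun he =>
    h (Projective.Point.toAffine_of_equiv he)
  have hadd := Projective.Point.toAffine_add hP hQ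
  have hn := Projective.nonsingular_add hP hQ
  rw [Projective.add_of_not_equiv hne] at hadd hn
  set T := W₁.toProjective.addXYZ (rep W₁ P) (rep W₁ Q) with hT
  have hTb : (Eb).toProjective.addXYZ (res ∘ rep W₁ P) (res ∘ rep W₁ Q) = res ∘ T :=
    Projective.map_addXYZ ..
  have hTK : (E).toProjective.addXYZ (A.subtype ∘ rep W₁ P) (A.subtype ∘ rep W₁ Q) =
      A.subtype ∘ T := Projective.map_addXYZ ..
  rw [hTb] at hadd hn
  obtain ⟨i, hi⟩ : ∃ i, IsUnit (T i) := by
    by_contra hno
    push Not at hno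
    have h0 : res ∘ T = 0 := funext fun i =>
      (IsLocalRing.residue_eq_zero_iff _).2 ((IsLocalRing.mem_maximalIdeal _).2 (hno i))
    rw [h0, Projective.nonsingular_of_Z_eq_zero (by rfl)] at hn
    rcases hn.2 with h3 | h3 <;> simp at h3
  obtain ⟨j, hj⟩ := exists_isUnit_rep W₁ (P + Q)
  have hunit : ∀ {a : A}, IsUnit a → A.valuation (a : K) = 1 := fun ha =>
    (A.valuation_eq_one_iff _).mp ha
  have key : ∀ lam : K, (E).toProjective.addXYZ (A.subtype ∘ rep W₁ P) (A.subtype ∘ rep W₁ Q) =
      lam • (A.subtype ∘ rep W₁ (P + Q)) → A.valuation lam = 1 := by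
    intro lam hl
    rw [hTK] at hl
    have h1 : A.valuation ((T i : A) : K) =
        A.valuation lam * A.valuation (rep W₁ (P + Q) i : K) := by
      rw [← map_mul]; exact congrArg A.valuation (congrFun hl i)
    have h2 : A.valuation ((T j : A) : K) =
        A.valuation lam * A.valuation (rep W₁ (P + Q) j : K) := by
      rw [← map_mul]; exact congrArg A.valuation (congrFun hl j)
    rw [hunit hj, mul_one] at h2
    refine le_antisymm (h2 ▸ (val_le_iff A).2 (T j).2) ?_
    rw [← hunit hi, h1]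
    exact mul_le_of_le_one_right' ((val_le_iff A).2 (rep W₁ (P + Q) i).2)
  refine ⟨?_, key⟩
  obtain ⟨lam, hl⟩ := exists_addXYZ W₁ P Q
  have hv := key lam hl
  rw [hTK] at hl
  let u : A := ⟨lam, (val_le_iff A).1 hv.le⟩
  have hu : IsUnit u := (A.valuation_eq_one_iff u).mpr hv
  have e : T = u • rep W₁ (P + Q) := funext fun k => Subtype.ext (congrFun hl k)
  rw [e, Projective.comp_smul, Projective.Point.toAffine_smul _ (hu.map res)] at hadd
  exact hadd

end FLTAgent.TateLocal.Proj
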